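import Mathlib

/-!
# S12 : the elementary end of the argument

`a ^ p + b ^ p = c ^ p` together with `16 ^ (p - 1) c ^ (p ^ 2) = 16 ^ (p - 1) a ^ (p ^ 2) + b ^ (p ^ 2)`
(`a` odd, `b ≠ 0` even, `p ≥ 5` odd) is impossible: with `x = a ^ p`, `y = b ^ p`, `z = c ^ p`,
`z ^ p - x ^ p = y S`, `S` odd, so `y ^ (p - 1) = 16 ^ (p - 1) S` and `v₂(y) = 4`, but `p ∣ v₂(y)`.
-/

set_option autoImplicit false

namespace Fermat.Agent.S12

/-- uniqueness of the `2`-adic decomposition -/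
theorem Arith_two_pow_unique {u v : ℕ} {s t : ℤ} (hs : Odd s) (ht : Odd t)
    (h : 2 ^ u * s = 2 ^ v * t) : u = v := by
  have key : ∀ {u v : ℕ} {s t : ℤ}, Odd s → Odd t → 2 ^ u * s = 2 ^ v * t → u ≤ v := by
    intro u v s t _ ht h
    by_contra hlt
    push Not at hlt
    obtain ⟨d, rfl⟩ : ∃ d, u = v + (d + 1) := ⟨u - v - 1, by omega⟩
    rw [pow_add, mul_assoc] at h
    have h2 : (2 : ℤ) ^ (d + 1) * s = t := mul_left_cancel₀ (pow_ne_zero v two_ne_zero) h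
    have h3 : Even t := by
      rw [← h2, pow_succ]
      exact ⟨2 ^ d * s, by ring⟩
    exact (Int.not_even_iff_odd.mpr ht) h3
  exact le_antisymm (key hs ht h) (key ht hs h.symm)

/-- `∑ z ^ i x ^ (p - 1 - i)` is odd -/
theorem Arith_odd_geom {p : ℕ} (hp : Odd p) {x z : ℤ} (hx : Odd x) (hz : Odd z) :
    Odd (∑ i ∈ Finset.range p, z ^ i * x ^ (p - 1 - i)) := by
  have key : ∀ (f : ℕ → ℤ), (∀ i, Odd (f i)) → ∀ n : ℕ, Even (∑ i ∈ Finset.range n, f i - n) := by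
    intro f hf n
    induction n with
    | zero => simp
    | succ n ih =>
      rw [Finset.sum_range_succ]
      obtain ⟨r, hr⟩ := hf n
      obtain ⟨t, ht⟩ := ih
      exact ⟨t + r, by push_cast; linarith⟩
  have h1 := key (fun i => z ^ i * x ^ (p - 1 - i)) (fun i => (hz.pow).mul (hx.pow)) p
  have h2 : Odd (p : ℤ) := by exact_mod_cast hp
  have h3 := h1.add_odd h2
  rwa [sub_add_cancel] at h3

/-- the core: `x + y = z`, `16 ^ (p - 1) z ^ p = 16 ^ (p - 1) x ^ p + y ^ p`. -/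
theorem arith_core {p : ℕ} (hp : Odd p) {x y z : ℤ} (hx : Odd x) (hy : Even y) (hy0 : y ≠ 0)
    (h1 : x + y = z) (h2 : 16 ^ (p - 1) * z ^ p = 16 ^ (p - 1) * x ^ p + y ^ p) :
    ∃ S : ℤ, Odd S ∧ y ^ (p - 1) = 2 ^ (4 * (p - 1)) * S := by
  have hz : Odd z := by rw [← h1]; exact hx.add_even hy
  refine ⟨_, Arith_odd_geom hp hx hz, ?_⟩
  have h3 := geom_sum₂_mul z x p
  have h4 : z - x = y := by rw [← h1]; ring
  rw [h4] at h3
  obtain ⟨k, rfl⟩ : ∃ k, p = k + 1 := ⟨p - 1, by have := hp.pos; omega⟩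
  simp only [Nat.add_sub_cancel] at *
  have h5 : y ^ k * y = (2 ^ (4 * k) * ∑ i ∈ Finset.range (k + 1), z ^ i * x ^ (k - i)) * y := by
    rw [mul_assoc, h3, ← pow_succ, pow_mul]
    norm_num
    linarith
  exact mul_right_cancel₀ hy0 h5

theorem arith_end {p : ℕ} (hp : 5 ≤ p) (hodd : Odd p) {a b c : ℤ} (ha : Odd a) (hb : Even b)
    (hb0 : b ≠ 0) (h1 : a ^ p + b ^ p = c ^ p)
    (h2 : 16 ^ (p - 1) * c ^ (p ^ 2) = 16 ^ (p - 1) * a ^ (p ^ 2) + b ^ (p ^ 2)) : False := by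
  have hp0 : p ≠ 0 := by omega
  obtain ⟨S, hS, h3⟩ := arith_core hodd (x := a ^ p) (y := b ^ p) (z := c ^ p) ha.pow
    ((Int.even_pow' hp0).mpr hb) (pow_ne_zero p hb0) h1
    (by rw [← pow_mul, ← pow_mul, ← pow_mul, ← sq]; exact h2)
  -- `b = 2 ^ k m`
  obtain ⟨k, m, hm, hbm⟩ := Nat.exists_eq_two_pow_mul_odd (Int.natAbs_ne_zero.mpr hb0)
  have hb2 : b ^ 2 = (2 ^ k * (m : ℤ)) ^ 2 := by
    rw [← Int.natAbs_sq, hbm]
    push_cast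
    ring
  -- `p - 1` is even
  obtain ⟨j, hj⟩ : ∃ j, p - 1 = 2 * j := by
    obtain ⟨i, hi⟩ := hodd
    exact ⟨i, by omega⟩
  have h4 : (b ^ p) ^ (p - 1) = 2 ^ (k * (p * (p - 1))) * ((m : ℤ) ^ (p * (p - 1))) := by
    rw [← pow_mul, hj, show p * (2 * j) = 2 * (p * j) by ring, pow_mul, hb2, ← pow_mul, mul_pow,
      ← pow_mul]
  rw [h4] at h3
  have hmodd : Odd ((m : ℤ) ^ (p * (p - 1))) := by
    apply Odd.pow
    exact_mod_cast hm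
  have h5 := Arith_two_pow_unique hmodd hS h3
  have h6 : k * p = 4 := by
    have h7 : (k * p) * (p - 1) = 4 * (p - 1) := by rw [← h5]; ring
    exact Nat.eq_of_mul_eq_mul_right (by omega) h7
  have h8 : p ∣ 4 := ⟨k, by rw [← h6]; ring⟩
  have := Nat.le_of_dvd (by norm_num) h8
  omega

/-- the form in which the identity (A) + the valuations (B) deliver the input. -/
theorem arith_end_rat {p : ℕ} (hp : 5 ≤ p) (hodd : Odd p) {a b c : ℤ} (ha : Odd a) (hb : Even b)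
    (hb0 : b ≠ 0) (h1 : a ^ p + b ^ p = c ^ p) {P₁ P₂ P₃ : ℚ} (h3 : P₃ ≠ 0)
    (h23 : P₂ ^ 2 = P₃ ^ 2) (h13 : 16 ^ (p - 1) * P₁ ^ 2 = P₃ ^ 2)
    (hA : (c : ℚ) ^ (p ^ 2) * P₃ ^ 2 = (b : ℚ) ^ (p ^ 2) * P₁ ^ 2 + (a : ℚ) ^ (p ^ 2) * P₂ ^ 2) :
    False := by
  refine arith_end hp hodd ha hb hb0 h1 ?_
  have h4 : (16 : ℚ) ^ (p - 1) * (c : ℚ) ^ (p ^ 2) =
      16 ^ (p - 1) * (a : ℚ) ^ (p ^ 2) + (b : ℚ) ^ (p ^ 2) := by
    have h5 : P₃ ^ 2 ≠ 0 := pow_ne_zero 2 h3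
    apply mul_right_cancel₀ h5
    calc (16 : ℚ) ^ (p - 1) * (c : ℚ) ^ (p ^ 2) * P₃ ^ 2
        = 16 ^ (p - 1) * ((c : ℚ) ^ (p ^ 2) * P₃ ^ 2) := by ring
      _ = 16 ^ (p - 1) * ((b : ℚ) ^ (p ^ 2) * P₁ ^ 2 + (a : ℚ) ^ (p ^ 2) * P₂ ^ 2) := by rw [hA]
      _ = (b : ℚ) ^ (p ^ 2) * (16 ^ (p - 1) * P₁ ^ 2) +
            16 ^ (p - 1) * (a : ℚ) ^ (p ^ 2) * P₂ ^ 2 := by ring
      _ = (16 ^ (p - 1) * (a : ℚ) ^ (p ^ 2) + (b : ℚ) ^ (p ^ 2)) * P₃ ^ 2 := by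
          rw [h13, h23]; ring
  exact_mod_cast h4

end Fermat.Agent.S12
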