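import Fermat.Agent.S13

/-!
# S12, the prime `p`: a Galois-stable line of `E[p]` is the kernel of reduction at every `A ∣ p`
-/

set_option autoImplicit false
open WeierstrassCurve WeierstrassCurve.Affine WeierstrassCurve.Affine.Point
open FreyPackage

namespace Fermat.Agent.S12

open Fermat.Agent.S05 Fermat.Agent.S13

/-- For ANY Galois-stable line `N` of `E[p]` (Frey curve) and any `A ∣ p`: the nonzero points of `N`
are exactly the nonzero points of `E[p]` whose abscissa is not `A`-integral. -/
theorem xc_not_mem_atP (P : FreyPackage) (N : Submodule (ZMod P.p) (Tors P))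
    (hN : IsGaloisStable ℚ N) (hbot : N ≠ ⊥) (htop : N ≠ ⊤)
    (A : ValuationSubring Kb) (hA : A.LiesOverPrime P.p) (x : Tors P) (hx0 : x ≠ 0) :
    xc (x : Pt P) ∉ A ↔ x ∈ N := by
  haveI : Fact P.p.Prime := ⟨P.pp⟩
  obtain ⟨hfin, hcard⟩ := frey_card_le P
  obtain ⟨hat, hco⟩ := isAtom_isCoatom_of_card_le hcard N hbot htop
  obtain ⟨F, hFfin, hF⟩ := exists_finite_level P hfin
  rcases frey_ratprod P N hN hbot htop with h | h
  · exfalso
    have hp : ∀ A : ValuationSubring Kb, A.LiesOverPrime P.p →
        A.inertiaSubgroupIn ℚ ≤ fixGroup P N := by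
      intro A hA σ hσ
      obtain ⟨W₀, hW1, hW⟩ := frey_local_p P A hA
      refine fix_of_filtration hat (actHom P σ) (fun x hx => hN σ x hx)
        (W₀.comap (Submodule.subtype _).toAddMonoidHom) (torsE1 P A) ?_ ?_ ?_
      · intro x
        exact (hW σ hσ x (tors_nsmul P x)).1
      · intro x hx
        rcases (hW σ hσ x (tors_nsmul P x)).2 hx with h | h
        · exact Or.inl (Subtype.ext h)
        · exact Or.inr h
      · rintro x hx (h' | h')
        · exact h'
        · exact absurd (h A hA x hx) h'
    have htopH : fixGroup P N = ⊤ := by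
      apply eq_top_of_inertia_le _ (fixGroup_normal P N hN) F hFfin
      · intro σ hσ x _
        exact hF σ hσ x
      · intro ℓ hℓ A hA
        by_cases hℓp : ℓ = P.p
        · subst hℓp; exact hp A hA
        · exact (inertia_away P N hN hat hco hℓ hℓp A hA).1
    obtain ⟨t, htN, ht0⟩ := Submodule.exists_mem_ne_zero_of_ne_bot hbot
    obtain ⟨σ, hσ⟩ := frey_no_fixed P (t : Pt P) (fun h0 => ht0 (Subtype.ext h0)) (tors_nsmul P t)
    apply hσ
    have : σ ∈ fixGroup P N := by rw [htopH]; exact Subgroup.mem_top σ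
    exact congrArg Subtype.val (this t htN)
  · exact h A hA x hx0

end Fermat.Agent.S12
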