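import Fermat.Agent.S13.Iface

/-!
# S12 : definitions

`E` = the Frey curve `y² + xy = x³ + a₂x² + a₄x`, `ps² = 4 x (x - a^p/4) (x + b^p/4)`;
`Q` a generator of the Galois-stable cofixed line.
-/

set_option autoImplicit false

namespace Fermat.Agent.S12

open WeierstrassCurve WeierstrassCurve.Affine Fermat.Agent.S05 Fermat.Agent.S13

/-- all `ψ(kQ)` are units at `A` -/
def GoodAt (P : FreyPackage) (Q : Pt P) (A : ValuationSubring Kb) : Prop :=
  ∀ k : ℕ, ¬ P.p ∣ k → A.valuation (ps (k • Q)) = 1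

/-- all `ψ(kQ)` are non-units at `A` -/
def BadAt (P : FreyPackage) (Q : Pt P) (A : ValuationSubring Kb) : Prop :=
  ∀ k : ℕ, ¬ P.p ∣ k → ps (k • Q) ∈ A.nonunits

/-- `Q` generates a Galois-stable cofixed line. -/
structure LineData (P : FreyPackage) (Q : Pt P) : Prop where
  ne : Q ≠ 0
  tor : P.p • Q = 0
  stab : ∀ σ : GalQ, ∃ k : ℕ, σ • Q = k • Q
  cofix : ∀ (σ : GalQ) (R : Pt P), P.p • R = 0 → ∃ k : ℕ, σ • R - R = k • Q
  fin : {R : Pt P | P.p • R = 0}.Finite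
  card : P.p < {R : Pt P | P.p • R = 0}.ncard
  atp : ∀ A : ValuationSubring Kb, A.LiesOverPrime P.p → ∀ k : ℕ, ¬ P.p ∣ k → xc (k • Q) ∉ A

end Fermat.Agent.S12
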