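import Fermat.Agent.S15.Geom.Descent
import Fermat.Agent.S15.Mod.Top
import Fermat.Agent.S15.Mod.Loc.ZeroAll

/-!
# S12 / (D) : Mazur's Eisenstein descent for a `G_ℚ`-stable line

`W / ℤ`, `Q` a point of exact order `p ∉ {2, 3, 5, 7, 13}` whose line `⟨Q⟩` is `G_ℚ`-stable.
If `Q` lies in the zero component at two different multiplicative primes `q₁ ≠ q₂` (`≠ p`), then
`Q` lies in the zero component at every multiplicative prime `ℓ' ≠ p` with `p + 1 ≤ 2 ℓ'`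
(more precisely: at every multiplicative prime different from `p` and from the descent prime).

The point `(E, ⟨Q⟩)` of `X₀(p)` is rational; it reduces to the cusp `∞` where `Q` is in the zero
component, to the cusp `0` otherwise (`S15.Mod`); `S15.Geom.no_point` excludes the mixed case.
-/

set_option autoImplicit false
set_option synthInstance.maxHeartbeats 400000

noncomputable section

namespace Fermat.Agent.S12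

open AlgebraicCurve ModularCurve Fermat.Agent.GR Fermat.Agent.S17.FF
  Fermat.Agent.GR.S Fermat.Agent.S15 Fermat.Agent.S15.Red Fermat.Agent.S15.Cusp
  Fermat.Agent.S15.Mod Fermat.Agent.S15.Mod.Cen Fermat.Agent.LP.EIS
open WeierstrassCurve WeierstrassCurve.Affine

theorem Descent_ptCls_self {p : ℕ} [NeZero p] (x : Place S15.Qb (modularFunctionFieldBar p)) :
    ptCls x x = 0 := by
  have h := ptCls_add x x x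
  exact left_eq_add.1 h.symm

theorem Descent_ptCls_swap {p : ℕ} [NeZero p] (x y : Place S15.Qb (modularFunctionFieldBar p)) :
    ptCls x y = - ptCls y x := by
  have h := ptCls_add x y x
  rw [Descent_ptCls_self] at h
  exact eq_neg_of_add_eq_zero_left h

/-- **MOD for a stable line**, with the two cusps exchanged. -/
theorem Descent_point {p : ℕ} [NeZero p] (hp : p.Prime) (hp2 : p ≠ 2)
    (C : CuspData p (modularFunctionFieldBar p)) (W : WeierstrassCurve ℤ) (hΔ : W.Δ ≠ 0)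
    (Q : ((W.map (Int.castRingHom ℚ))⁄(AlgebraicClosure ℚ)).Point)
    (hstab : ∀ σ : AlgebraicClosure ℚ ≃ₐ[ℚ] AlgebraicClosure ℚ, ∃ k : ℕ, σ • Q = k • Q)
    (hQ : addOrderOf Q = p)
    {q₀ : ℕ} (hq₀ : q₀.Prime) (hq₀p : q₀ ≠ p) (hq₀Δ : (q₀ : ℤ) ∣ W.Δ) (hq₀c : ¬ (q₀ : ℤ) ∣ W.c₄)
    (A₀ : ValuationSubring (AlgebraicClosure ℚ)) (hA₀ : A₀.LiesOverPrime q₀)
    (hz : W.InZeroComponentAt A₀ Q)
    {ℓ' : ℕ} (hℓ' : ℓ'.Prime) (hℓ'p : ℓ' ≠ p) (hℓ'Δ : (ℓ' : ℤ) ∣ W.Δ)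
    (hℓ'c : ¬ (ℓ' : ℤ) ∣ W.c₄)
    (A' : ValuationSubring (AlgebraicClosure ℚ)) (hA' : A'.LiesOverPrime ℓ')
    (hn : ¬ W.InZeroComponentAt A' Q) :
    ∃ y : JZero p, (∀ σ : S15.GQ, σ • y = y) ∧ y ∈ K1q p q₀ A₀ ∧ y + C.c₀ ∈ K1q p ℓ' A' := by
  have hc₄ : W.c₄ ≠ 0 := fun h => hℓ'c (h ▸ dvd_zero _)
  obtain ⟨x, hx, hxj, hxg0, hxg⟩ :=
    Top_exists_place hp hp2 C W hΔ hc₄ (Top_c₆_ne_zero W hℓ' hℓ'Δ hℓ'c) Q hQ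
  have hj' : val x C.j ∉ A' := by
    rw [hxj]
    exact Loc.jW_not_mem hΔ hℓ' hℓ'Δ hℓ'c hA'
  have hj₀ : val x C.j ∉ A₀ := by
    rw [hxj]
    exact Loc.jW_not_mem hΔ hq₀ hq₀Δ hq₀c hA₀
  have hg₀ : val x C.g ∉ A₀ := by
    rw [hxg]
    exact Loc.gam_not_mem_all hΔ hp hp2 hQ hq₀ hq₀p hq₀Δ A₀ hA₀ hz
  have hg' : val x (C.j ^ (p - 1) / C.g) ∉ A' := by
    rw [Top_val_pow_div x hx C.g_ne_zero hxg0, hxj, hxg]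
    exact Loc.div_gam_not_mem hΔ hp hp2 hQ hℓ' hℓ'p hℓ'c A' hA' hn
  have hσ : ∀ σ : S15.GQ, gq p σ • x = x := fun σ => by
    obtain ⟨k, hk⟩ := hstab σ
    exact smul_place_eq hp hq₀ hq₀p A₀ hA₀ C hx hj₀ hg₀ σ (by rw [hxj]; exact Loc.jW_fix W σ)
      (by rw [hxg]; exact Loc.gam_fix_of_stable hp hQ σ hk)
  refine ⟨ptCls C.inf x, fun σ => ?_, ?_, ?_⟩
  · rw [smul_ptCls, hσ σ, C.smul_inf σ (gq p σ) (coe_gq_smul p σ)]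
  · rw [Descent_ptCls_swap]
    exact neg_mem (mem_K1q_inf hp hq₀ hq₀p A₀ hA₀ C hx hj₀ hg₀)
  · rw [← ptCls_zero_inf, add_comm, ptCls_add, Descent_ptCls_swap]
    exact neg_mem (mem_K1q_zero hp hℓ' hℓ'p A' hA' C hx hj' hg')

/-- **(D), sharp form**: there is a prime `lam` (`lam ∣ p - 1`, `2 lam ≤ p - 1`) such that a stable
line which is in the zero component at one multiplicative prime `q₀ ∉ {p, lam}` is in the zero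
component at all multiplicative primes `ℓ' ∉ {p, lam}`. -/
theorem inZero_of_stable_lam {p : ℕ} (hp : p.Prime) (hp' : p ∉ ({2, 3, 5, 7, 13} : Finset ℕ)) :
    ∃ lam : ℕ, lam.Prime ∧ lam ≠ p ∧ lam ∣ p - 1 ∧ 2 * lam ≤ p - 1 ∧
    ∀ (W : WeierstrassCurve ℤ), W.Δ ≠ 0 →
    ∀ (Q : ((W.map (Int.castRingHom ℚ))⁄(AlgebraicClosure ℚ)).Point), addOrderOf Q = p →
    (∀ σ : AlgebraicClosure ℚ ≃ₐ[ℚ] AlgebraicClosure ℚ, ∃ k : ℕ, σ • Q = k • Q) →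
    ∀ q₀ : ℕ, q₀.Prime → q₀ ≠ p → q₀ ≠ lam → (q₀ : ℤ) ∣ W.Δ → ¬ (q₀ : ℤ) ∣ W.c₄ →
    ∀ A₀ : ValuationSubring (AlgebraicClosure ℚ), A₀.LiesOverPrime q₀ →
      W.InZeroComponentAt A₀ Q →
    ∀ ℓ' : ℕ, ℓ'.Prime → ℓ' ≠ p → ℓ' ≠ lam → (ℓ' : ℤ) ∣ W.Δ → ¬ (ℓ' : ℤ) ∣ W.c₄ →
    ∀ A' : ValuationSubring (AlgebraicClosure ℚ), A'.LiesOverPrime ℓ' →
      W.InZeroComponentAt A' Q := by
  have : NeZero p := ⟨hp.ne_zero⟩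
  have hp2 : p ≠ 2 := by
    rintro rfl
    simp at hp'
  obtain ⟨lam, hlam, hlamp, hdvd, hle, H⟩ := Geom.no_point hp hp'
  refine ⟨lam, hlam, hlamp, hdvd, hle, ?_⟩
  intro W hΔ Q hQ hstab q₀ hq₀ hq₀p hq₀l hq₀Δ hq₀c A₀ hA₀ hz ℓ' hℓ' hℓ'p hℓ'l hℓ'Δ hℓ'c A' hA'
  by_contra hn
  obtain ⟨y, hy1, hy2, hy3⟩ := Descent_point hp hp2 (Cusp.cuspData p hp) W hΔ Q hstab hQ hq₀ hq₀p
    hq₀Δ hq₀c A₀ hA₀ hz hℓ' hℓ'p hℓ'Δ hℓ'c A' hA' hn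
  exact H y hy1 q₀ hq₀ hq₀p hq₀l A₀ hA₀ hy2 ℓ' hℓ' hℓ'p hℓ'l A' hA' hy3

/-- **(D)**: Mazur for the stable line. -/
theorem inZero_of_stable {p : ℕ} (hp : p.Prime) (hp' : p ∉ ({2, 3, 5, 7, 13} : Finset ℕ))
    (W : WeierstrassCurve ℤ) (hΔ : W.Δ ≠ 0)
    (Q : ((W.map (Int.castRingHom ℚ))⁄(AlgebraicClosure ℚ)).Point) (hQ : addOrderOf Q = p)
    (hstab : ∀ σ : AlgebraicClosure ℚ ≃ₐ[ℚ] AlgebraicClosure ℚ, ∃ k : ℕ, σ • Q = k • Q)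
    {q₁ q₂ : ℕ} (hq₁₂ : q₁ ≠ q₂)
    (hq₁ : q₁.Prime) (hq₁p : q₁ ≠ p) (hq₁Δ : (q₁ : ℤ) ∣ W.Δ) (hq₁c : ¬ (q₁ : ℤ) ∣ W.c₄)
    (A₁ : ValuationSubring (AlgebraicClosure ℚ)) (hA₁ : A₁.LiesOverPrime q₁)
    (hz₁ : W.InZeroComponentAt A₁ Q)
    (hq₂ : q₂.Prime) (hq₂p : q₂ ≠ p) (hq₂Δ : (q₂ : ℤ) ∣ W.Δ) (hq₂c : ¬ (q₂ : ℤ) ∣ W.c₄)
    (A₂ : ValuationSubring (AlgebraicClosure ℚ)) (hA₂ : A₂.LiesOverPrime q₂)
    (hz₂ : W.InZeroComponentAt A₂ Q)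
    {ℓ' : ℕ} (hℓ' : ℓ'.Prime) (hℓ'p : ℓ' ≠ p) (hbig : p + 1 ≤ 2 * ℓ') (hℓ'Δ : (ℓ' : ℤ) ∣ W.Δ)
    (hℓ'c : ¬ (ℓ' : ℤ) ∣ W.c₄)
    (A' : ValuationSubring (AlgebraicClosure ℚ)) (hA' : A'.LiesOverPrime ℓ') :
    W.InZeroComponentAt A' Q := by
  obtain ⟨lam, -, -, -, hle, H⟩ := inZero_of_stable_lam hp hp'
  have hℓ'l : ℓ' ≠ lam := by omega
  by_cases h1 : q₁ = lam
  · exact H W hΔ Q hQ hstab q₂ hq₂ hq₂p (fun h => hq₁₂ (h1.trans h.symm)) hq₂Δ hq₂c A₂ hA₂ hz₂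
      ℓ' hℓ' hℓ'p hℓ'l hℓ'Δ hℓ'c A' hA'
  · exact H W hΔ Q hQ hstab q₁ hq₁ hq₁p h1 hq₁Δ hq₁c A₁ hA₁ hz₁
      ℓ' hℓ' hℓ'p hℓ'l hℓ'Δ hℓ'c A' hA'

end Fermat.Agent.S12
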