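import Fermat.Agent.S13.InertiaVal

/-!
# S12: two Galois-fixed algebraic numbers with the same valuation at all primes agree up to sign
-/

set_option autoImplicit false

namespace Fermat.Agent.S12

local notation "Qb" => AlgebraicClosure ℚ
local notation "GQ" => (AlgebraicClosure ℚ ≃ₐ[ℚ] AlgebraicClosure ℚ)

/-- a Galois-fixed element of `ℚ̄` is rational. -/
theorem exists_ratCast_of_fixed {x : Qb} (hx : ∀ σ : GQ, σ x = x) : ∃ r : ℚ, (r : Qb) = x := by
  have hcl : IsAlgClosure ℚ Qb := ⟨inferInstance, AlgebraicClosure.isAlgebraic ℚ⟩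
  have hgal : IsGalois ℚ Qb := IsAlgClosure.isGalois ℚ Qb
  obtain ⟨r, hr⟩ := (InfiniteGalois.mem_range_algebraMap_iff_fixed (k := ℚ) (K := Qb) x).2 hx
  exact ⟨r, by rw [← hr]; simp⟩

/-- a rational number which is a unit at every prime is `±1`. -/
theorem rat_eq_one_or_neg_one {r : ℚ}
    (h : ∀ q : ℕ, q.Prime → ∃ A : ValuationSubring Qb, A.LiesOverPrime q ∧
      A.valuation (r : Qb) = 1) : r = 1 ∨ r = -1 := by
  have hr0 : r ≠ 0 := by
    rintro rfl
    obtain ⟨A, -, hA⟩ := h 2 Nat.prime_two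
    simp at hA
  have hden : r.den = 1 := by
    by_contra hne
    obtain ⟨q, hq, hqd⟩ := Nat.exists_prime_and_dvd hne
    obtain ⟨A, hA, hv⟩ := h q hq
    exact (S13.ratCast_mem_iff A hq hA r).1 ((A.valuation_le_one_iff _).1 hv.le) hqd
  have hnum : r.num.natAbs = 1 := by
    by_contra hne
    obtain ⟨q, hq, hqd⟩ := Nat.exists_prime_and_dvd hne
    obtain ⟨A, hA, hv⟩ := h q hq
    have h1 : (r⁻¹).den = r.num.natAbs := Rat.den_inv_of_ne_zero hr0
    have hv' : A.valuation ((r⁻¹ : ℚ) : Qb) = 1 := by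
      rw [Rat.cast_inv, map_inv₀, hv, inv_one]
    refine (S13.ratCast_mem_iff A hq hA r⁻¹).1 ((A.valuation_le_one_iff _).1 hv'.le) ?_
    rw [h1]
    exact hqd
  have h2 : r = r.num := by
    conv_lhs => rw [← Rat.num_div_den r, hden]
    simp
  rcases Int.natAbs_eq r.num with h3 | h3
  · left
    rw [h2, h3, hnum]
    simp
  · right
    rw [h2, h3, hnum]
    simp

/-- **RatSign.** -/
theorem eq_or_eq_neg_of_val {x y : Qb} (hx : ∀ σ : GQ, σ x = x) (hy : ∀ σ : GQ, σ y = y)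
    (hy0 : y ≠ 0)
    (h : ∀ q : ℕ, q.Prime → ∃ A : ValuationSubring Qb, A.LiesOverPrime q ∧
      A.valuation x = A.valuation y) : x = y ∨ x = -y := by
  obtain ⟨r, rfl⟩ := exists_ratCast_of_fixed hx
  obtain ⟨s, rfl⟩ := exists_ratCast_of_fixed hy
  have hs0 : s ≠ 0 := by
    rintro rfl
    exact hy0 (by simp)
  have h1 : r / s = 1 ∨ r / s = -1 := by
    refine rat_eq_one_or_neg_one fun q hq => ?_
    obtain ⟨A, hA, hv⟩ := h q hq
    refine ⟨A, hA, ?_⟩
    rw [Rat.cast_div, map_div₀, hv, div_self]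
    exact (A.valuation.ne_zero_iff).2 hy0
  rcases h1 with h1 | h1
  · left
    rw [div_eq_one_iff_eq hs0] at h1
    rw [h1]
  · right
    rw [div_eq_iff hs0] at h1
    rw [h1]
    push_cast
    ring

end Fermat.Agent.S12
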