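import Fermat.Agent.S13
import Fermat.Agent.S12.Arith
import Fermat.Agent.S12.RatSign

/-!
# S12, the end: identity + goodness away from `p` + poles at `p` give a contradiction
-/

set_option autoImplicit false
open WeierstrassCurve WeierstrassCurve.Affine WeierstrassCurve.Affine.Point
open FreyPackage

namespace Fermat.Agent.S12

open Fermat.Agent.S05 Fermat.Agent.S13

/-- reindexing the nonzero multiples of a point of prime order -/
theorem End_prod_reindex {G M : Type*} [AddCommGroup G] [CommMonoid M] {p : ℕ} (hp : p.Prime)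
    {Q : G} (hQ : p • Q = 0) (f : G → M) {m : ℕ} (hm : ¬ p ∣ m) :
    ∏ k ∈ Finset.Ico 1 p, f (k • (m • Q)) = ∏ k ∈ Finset.Ico 1 p, f (k • Q) := by
  have hmod : ∀ n : ℕ, (n % p) • Q = n • Q := by
    intro n
    conv_rhs => rw [← Nat.div_add_mod n p, add_nsmul, mul_nsmul, hQ, nsmul_zero, zero_add]
  have hmaps : ∀ k ∈ Finset.Ico 1 p, (k * m) % p ∈ Finset.Ico 1 p := by
    intro k hk
    rw [Finset.mem_Ico] at hk ⊢
    refine ⟨?_, Nat.mod_lt _ hp.pos⟩
    rw [Nat.one_le_iff_ne_zero]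
    intro h0
    rcases (Nat.Prime.dvd_mul hp).1 (Nat.dvd_of_mod_eq_zero h0) with h | h
    · exact absurd (Nat.le_of_dvd (by omega) h) (by omega)
    · exact hm h
  have hinj : Set.InjOn (fun k => (k * m) % p) (Finset.Ico 1 p : Set ℕ) := by
    intro k hk k' hk' h
    rw [Finset.mem_coe, Finset.mem_Ico] at hk hk'
    have h1 : k * m ≡ k' * m [MOD p] := h
    have hcop : Nat.gcd p m = 1 := (Nat.Prime.coprime_iff_not_dvd hp).2 hm
    have h2 : k ≡ k' [MOD p] := Nat.ModEq.cancel_right_of_coprime hcop h1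
    have h3 : k % p = k' % p := h2
    rwa [Nat.mod_eq_of_lt hk.2, Nat.mod_eq_of_lt hk'.2] at h3
  have hsurj : Set.SurjOn (fun k => (k * m) % p) (Finset.Ico 1 p : Set ℕ)
      (Finset.Ico 1 p : Set ℕ) :=
    Finset.surjOn_of_injOn_of_card_le _ hmaps hinj le_rfl
  refine Finset.prod_nbij (fun k => (k * m) % p) hmaps hinj hsurj ?_
  intro k _
  rw [hmod, mul_nsmul']

variable (P : FreyPackage)

/-- `ψ² = x (4x - a^p) (x + b^p/4)` -/
theorem End_ps_sq {T : Pt P} (hT : T ≠ 0) :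
    ps T ^ 2 = xc T * (4 * xc T - (P.a : Kb) ^ P.p) * (xc T + (P.b : Kb) ^ P.p / 4) := by
  rw [ps_sq hT, frey_b₂_Kb, frey_b₄_Kb, frey_b₆_Kb]
  ring

/-- `b^p/4` is an integer -/
theorem End_b4_int : ∃ n : ℤ, (P.b : Kb) ^ P.p / 4 = (n : Kb) := by
  obtain ⟨k, hk⟩ := frey_two_dvd_b P
  have hb : (P.b : Kb) = 2 * (k : Kb) := by exact_mod_cast congrArg (Int.cast : ℤ → Kb) hk
  have hp : (P.b : Kb) ^ P.p = (P.b : Kb) ^ 2 * (P.b : Kb) ^ (P.p - 2) := by
    rw [← pow_add]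
    congr 1
    have := P.hp5
    omega
  refine ⟨k ^ 2 * P.b ^ (P.p - 2), ?_⟩
  rw [hp]
  push_cast
  generalize (P.b : Kb) ^ (P.p - 2) = t
  rw [hb]
  ring

theorem End_xc_mem (A : ValuationSubring Kb) (hpA : (P.p : Kb) ∉ A.nonunits) {T : Pt P}
    (hT : T ≠ 0) (hpT : P.p • T = 0) : xc T ∈ A := by
  have hp2 : P.p ≠ 2 := by have := P.hp5; omega
  have hB : (f2_D P).B ∈ A := by rw [xi0_B]; exact frey_b₂_Kb_mem P A
  have hc : (f2_D P).c ∈ A := by
    rw [xi0_c, frey_b₄_half_Kb]; exact (frey_coeff_mem P A).2.2.2.1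
  have := (f2_D P).ξ_mem_of_torsion A hB hc P.pp hp2 hpA hT hpT
  rwa [xi0_ξ] at this

/-- three integral elements whose product is a unit are units -/
theorem End_units_of_mul (A : ValuationSubring Kb) {x y z : Kb} (hx : x ∈ A) (hy : y ∈ A)
    (hz : z ∈ A) (h : A.valuation (x * y * z) = 1) :
    A.valuation x = 1 ∧ A.valuation y = 1 ∧ A.valuation z = 1 := by
  have hx' := (A.valuation_le_one_iff x).2 hx
  have hy' := (A.valuation_le_one_iff y).2 hy
  have hz' := (A.valuation_le_one_iff z).2 hz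
  rw [map_mul, map_mul] at h
  have h1 : A.valuation x = 1 := by
    refine le_antisymm hx' ?_
    rw [← h]
    calc A.valuation x * A.valuation y * A.valuation z
        ≤ A.valuation x * 1 * 1 := by gcongr
      _ = A.valuation x := by rw [mul_one, mul_one]
  have h2 : A.valuation y = 1 := by
    refine le_antisymm hy' ?_
    rw [← h]
    calc A.valuation x * A.valuation y * A.valuation z
        ≤ 1 * A.valuation y * 1 := by gcongr
      _ = A.valuation y := by rw [mul_one, one_mul]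
  refine ⟨h1, h2, ?_⟩
  rw [h1, h2, one_mul, one_mul] at h
  exact h

/-- away from `p`, at a point with `ψ` a unit -/
theorem End_val_good (A : ValuationSubring Kb) (hpA : (P.p : Kb) ∉ A.nonunits) {T : Pt P}
    (hT : T ≠ 0) (hpT : P.p • T = 0) (hψ : A.valuation (ps T) = 1) :
    A.valuation (4 * xc T - (P.a : Kb) ^ P.p) = A.valuation (xc T) ∧
      A.valuation (xc T + (P.b : Kb) ^ P.p / 4) = A.valuation (xc T) := by
  have hx := End_xc_mem P A hpA hT hpT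
  obtain ⟨n, hn⟩ := End_b4_int P
  have h1 : 4 * xc T - (P.a : Kb) ^ P.p ∈ A :=
    sub_mem (mul_mem (ofNat_mem A 4) hx) (pow_mem (intCast_mem A _) _)
  have h2 : xc T + (P.b : Kb) ^ P.p / 4 ∈ A := by
    rw [hn]; exact add_mem hx (intCast_mem A _)
  have h3 : A.valuation (xc T * (4 * xc T - (P.a : Kb) ^ P.p) *
      (xc T + (P.b : Kb) ^ P.p / 4)) = 1 := by
    rw [← End_ps_sq P hT, map_pow, hψ, one_pow]
  obtain ⟨e1, e2, e3⟩ := End_units_of_mul A hx h1 h2 h3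
  exact ⟨by rw [e1, e2], by rw [e1, e3]⟩

/-- at `p`, at a point with a pole -/
theorem End_val_p (A : ValuationSubring Kb) (hA : A.LiesOverPrime P.p) {T : Pt P}
    (hx : xc T ∉ A) :
    A.valuation (4 * xc T - (P.a : Kb) ^ P.p) = A.valuation (xc T) ∧
      A.valuation (xc T + (P.b : Kb) ^ P.p / 4) = A.valuation (xc T) := by
  have hx1 : 1 < A.valuation (xc T) := by
    rw [← not_le, A.valuation_le_one_iff]; exact hx
  obtain ⟨n, hn⟩ := End_b4_int P
  have h4 := freyP_val_four P A hA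
  constructor
  · have e : A.valuation (4 * xc T) = A.valuation (xc T) := by rw [map_mul, h4, one_mul]
    rw [Valuation.map_sub_eq_of_lt_left _ ?_, e]
    rw [e]
    exact lt_of_le_of_lt ((A.valuation_le_one_iff _).2 (pow_mem (intCast_mem A _) _)) hx1
  · rw [hn]
    exact Valuation.map_add_eq_of_lt_left _
      (lt_of_le_of_lt ((A.valuation_le_one_iff _).2 (intCast_mem A _)) hx1)

/-- `∏_{0<k<p} (x(kQ) - e)` -/
noncomputable def Pi (Q : Pt P) (e : Kb) : Kb := ∏ k ∈ Finset.Ico 1 P.p, (xc (k • Q) - e)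

theorem End_nsmul_ne_zero {Q : Pt P} (hQ0 : Q ≠ 0) (hpQ : P.p • Q = 0) {k : ℕ}
    (hk : k ∈ Finset.Ico 1 P.p) : k • Q ≠ 0 := by
  rw [Finset.mem_Ico] at hk
  exact XiData.nsmul_ne_zero_of_lt P.pp hQ0 hpQ hk.1 hk.2

theorem End_nsmul_tors {Q : Pt P} (hpQ : P.p • Q = 0) (k : ℕ) : P.p • (k • Q) = 0 := by
  rw [smul_comm, hpQ]
  exact nsmul_zero k

/-- a product over the nonzero multiples of a generator of a Galois-stable line is rational -/
theorem End_fix {Q : Pt P} (hQ0 : Q ≠ 0) (hpQ : P.p • Q = 0)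
    (hstab : ∀ σ : GalQ, ∃ k : ℕ, σ • Q = k • Q) (g : Kb → Kb)
    (hg : ∀ (σ : GalQ) (x : Kb), σ (g x) = g (σ x)) (σ : GalQ) :
    σ (∏ k ∈ Finset.Ico 1 P.p, g (xc (k • Q))) = ∏ k ∈ Finset.Ico 1 P.p, g (xc (k • Q)) := by
  obtain ⟨m, hm⟩ := hstab σ
  have hpm : ¬ P.p ∣ m := by
    rintro ⟨j, rfl⟩
    rw [mul_nsmul, hpQ, nsmul_zero] at hm
    exact f2_smul_ne_zero P σ hQ0 hm
  rw [map_prod, ← End_prod_reindex P.pp hpQ (fun T => g (xc T)) hpm]
  refine Finset.prod_congr rfl fun k _ => ?_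
  rw [hg, ← xc_smul, ← hm]
  congr 2
  exact map_nsmul (Point.map (W' := P.freyCurve) σ.toAlgHom) k Q

/-- **The end of S12.** -/
theorem end_of {Q : Pt P} (hQ0 : Q ≠ 0) (hpQ : P.p • Q = 0)
    (hstab : ∀ σ : GalQ, ∃ k : ℕ, σ • Q = k • Q)
    (hgood : ∀ ℓ : ℕ, ℓ.Prime → ℓ ≠ P.p → ∃ A : ValuationSubring Kb, A.LiesOverPrime ℓ ∧
      ∀ k ∈ Finset.Ico 1 P.p, A.valuation (ps (k • Q)) = 1)
    (hatp : ∃ A : ValuationSubring Kb, A.LiesOverPrime P.p ∧
      ∀ k ∈ Finset.Ico 1 P.p, xc (k • Q) ∉ A)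
    (hident : ((P.a : Kb) ^ P.p / 4 - -((P.b : Kb) ^ P.p / 4)) ^ P.p * Pi P Q 0 ^ 2 +
      (-((P.b : Kb) ^ P.p / 4) - 0) ^ P.p * Pi P Q ((P.a : Kb) ^ P.p / 4) ^ 2 +
      (0 - (P.a : Kb) ^ P.p / 4) ^ P.p * Pi P Q (-((P.b : Kb) ^ P.p / 4)) ^ 2 = 0) : False := by
  have hp2 : (2 : ℕ) ≠ P.p := by have := P.hp5; omega
  set R1 : Kb := ∏ k ∈ Finset.Ico 1 P.p, (4 * xc (k • Q) - (P.a : Kb) ^ P.p) with hR1
  set R2 : Kb := ∏ k ∈ Finset.Ico 1 P.p, (xc (k • Q) + (P.b : Kb) ^ P.p / 4) with hR2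
  set R3 : Kb := ∏ k ∈ Finset.Ico 1 P.p, xc (k • Q) with hR3
  -- rationality
  have hf1 : ∀ σ : GalQ, σ R1 = R1 := fun σ =>
    End_fix P hQ0 hpQ hstab (fun x => 4 * x - (P.a : Kb) ^ P.p)
      (fun σ x => by rw [map_sub, map_mul, map_pow, map_intCast, map_ofNat]) σ
  have hf2 : ∀ σ : GalQ, σ R2 = R2 := fun σ =>
    End_fix P hQ0 hpQ hstab (fun x => x + (P.b : Kb) ^ P.p / 4)
      (fun σ x => by rw [map_add, map_div₀, map_pow, map_intCast, map_ofNat]) σ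
  have hf3 : ∀ σ : GalQ, σ R3 = R3 := fun σ =>
    End_fix P hQ0 hpQ hstab (fun x => x) (fun σ x => rfl) σ
  -- nonvanishing
  have hR30 : R3 ≠ 0 := by
    obtain ⟨A, -, hA⟩ := hgood 2 Nat.prime_two hp2
    rw [hR3, Finset.prod_ne_zero_iff]
    intro k hk h0
    have h1 := End_ps_sq P (End_nsmul_ne_zero P hQ0 hpQ hk)
    rw [h0, zero_mul, zero_mul] at h1
    have h2 := hA k hk
    rw [pow_eq_zero_iff two_ne_zero |>.1 h1, _root_.map_zero] at h2
    exact zero_ne_one h2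
  -- valuations
  have hval : ∀ q : ℕ, q.Prime → ∃ A : ValuationSubring Kb, A.LiesOverPrime q ∧
      ∀ k ∈ Finset.Ico 1 P.p,
        A.valuation (4 * xc (k • Q) - (P.a : Kb) ^ P.p) = A.valuation (xc (k • Q)) ∧
        A.valuation (xc (k • Q) + (P.b : Kb) ^ P.p / 4) = A.valuation (xc (k • Q)) := by
    intro q hq
    by_cases hqp : q = P.p
    · subst hqp
      obtain ⟨A, hA, h⟩ := hatp
      exact ⟨A, hA, fun k hk => End_val_p P A hA (h k hk)⟩
    · obtain ⟨A, hA, h⟩ := hgood q hq hqp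
      have hpA : (P.p : Kb) ∉ A.nonunits := by
        apply not_nonunits_of_val_eq_one
        exact freyP_val_natCast A hq hA (fun hd => hqp ((Nat.prime_dvd_prime_iff_eq hq P.pp).1 hd))
      exact ⟨A, hA, fun k hk => End_val_good P A hpA (End_nsmul_ne_zero P hQ0 hpQ hk)
        (End_nsmul_tors P hpQ k) (h k hk)⟩
  have h13 : R1 = R3 ∨ R1 = -R3 := by
    refine eq_or_eq_neg_of_val hf1 hf3 hR30 fun q hq => ?_
    obtain ⟨A, hA, h⟩ := hval q hq
    refine ⟨A, hA, ?_⟩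
    rw [hR1, hR3, map_prod, map_prod]
    exact Finset.prod_congr rfl fun k hk => (h k hk).1
  have h23 : R2 = R3 ∨ R2 = -R3 := by
    refine eq_or_eq_neg_of_val hf2 hf3 hR30 fun q hq => ?_
    obtain ⟨A, hA, h⟩ := hval q hq
    refine ⟨A, hA, ?_⟩
    rw [hR2, hR3, map_prod, map_prod]
    exact Finset.prod_congr rfl fun k hk => (h k hk).2
  have h13' : R1 ^ 2 = R3 ^ 2 := by rcases h13 with h | h <;> rw [h] <;> ring
  have h23' : R2 ^ 2 = R3 ^ 2 := by rcases h23 with h | h <;> rw [h] <;> ring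
  -- the `Pi`s
  have e3 : Pi P Q 0 = R3 := by
    rw [Pi, hR3]; exact Finset.prod_congr rfl fun k _ => sub_zero _
  have e2 : Pi P Q (-((P.b : Kb) ^ P.p / 4)) = R2 := by
    rw [Pi, hR2]; exact Finset.prod_congr rfl fun k _ => sub_neg_eq_add _ _
  have e1 : 4 ^ (P.p - 1) * Pi P Q ((P.a : Kb) ^ P.p / 4) = R1 := by
    have hc : (Finset.Ico 1 P.p).card = P.p - 1 := Nat.card_Ico 1 P.p
    rw [Pi, hR1, ← hc, ← Finset.prod_const, ← Finset.prod_mul_distrib]
    refine Finset.prod_congr rfl fun k _ => ?_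
    ring
  rw [e3, e2] at hident
  obtain ⟨j, hj⟩ := P.hp_odd
  -- the integer identity
  have hFLT := frey_FLT_Kb P
  have key : (16 : Kb) ^ (P.p - 1) * (P.c : Kb) ^ (P.p ^ 2) =
      16 ^ (P.p - 1) * (P.a : Kb) ^ (P.p ^ 2) + (P.b : Kb) ^ (P.p ^ 2) := by
    have h16 : (16 : Kb) ^ (P.p - 1) = (4 ^ (P.p - 1)) ^ 2 := by
      rw [← pow_mul, mul_comm, pow_mul]; norm_num
    have hodd : ∀ t : Kb, (-t) ^ P.p = -(t ^ P.p) := fun t => P.hp_odd.neg_pow t
    have h4 : (4 : Kb) ^ P.p ≠ 0 := pow_ne_zero _ (by norm_num)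
    have hid : ((P.c : Kb) ^ P.p) ^ P.p * R3 ^ 2 =
        ((P.b : Kb) ^ P.p) ^ P.p * Pi P Q ((P.a : Kb) ^ P.p / 4) ^ 2 +
          ((P.a : Kb) ^ P.p) ^ P.p * R2 ^ 2 := by
      have h1 : (P.a : Kb) ^ P.p / 4 - -((P.b : Kb) ^ P.p / 4) = (P.c : Kb) ^ P.p / 4 := by
        rw [← hFLT]; ring
      rw [h1, sub_zero, zero_sub, hodd, hodd, div_pow, div_pow, div_pow] at hident
      field_simp at hident
      linear_combination hident
    rw [sq P.p, pow_mul, pow_mul, pow_mul]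
    apply mul_right_cancel₀ (pow_ne_zero 2 hR30)
    rw [h23'] at hid
    rw [h16]
    linear_combination (4 ^ (P.p - 1)) ^ 2 * hid +
      ((P.b : Kb) ^ P.p) ^ P.p * (4 ^ (P.p - 1) * Pi P Q ((P.a : Kb) ^ P.p / 4) + R1) * e1 +
      ((P.b : Kb) ^ P.p) ^ P.p * h13'
  refine arith_end P.hp5 P.hp_odd (frey_odd_a P) (even_iff_two_dvd.2 (frey_two_dvd_b P)) P.hb0
    P.hFLT ?_
  exact_mod_cast key

end Fermat.Agent.S12
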