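import Mathlib
import Fermat.Prelude.Def_FLTPrelim_FreyPackage

/-!
# S12: the integral model `P.freyCurveInt` of the Frey curve: base change, `Δ`, `c₄`, reduction types
-/

set_option autoImplicit false

namespace Fermat.Agent.S12

variable (P : FreyPackage)

theorem FreyInt_two_dvd_b : (2 : ℤ) ∣ P.b := (ZMod.intCast_zmod_eq_zero_iff_dvd P.b 2).1 P.hb2

/-- `32 ∣ b ^ p`. -/
theorem FreyInt_dvd_b_pow : (32 : ℤ) ∣ P.b ^ P.p := by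
  obtain ⟨k, hk⟩ := FreyInt_two_dvd_b P
  have h5 := P.hp5
  obtain ⟨m, hm⟩ : ∃ m, P.p = 5 + m := ⟨P.p - 5, by omega⟩
  rw [hk, hm, mul_pow, pow_add]
  exact ⟨2 ^ m * k ^ (5 + m), by ring⟩

/-- `a ^ p ≡ 3 mod 4`. -/
theorem FreyInt_a_pow : (4 : ℤ) ∣ P.a ^ P.p + 1 := by
  have h1 : (4 : ℤ) ∣ P.a + 1 := by
    have h : ((P.a + 1 : ℤ) : ZMod 4) = 0 := by
      push_cast
      rw [P.ha4]
      decide
    exact (ZMod.intCast_zmod_eq_zero_iff_dvd _ 4).1 h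
  have h2 : P.a + 1 ∣ P.a ^ P.p + 1 ^ P.p := Odd.add_dvd_pow_add_pow _ _ P.hp_odd
  rw [one_pow] at h2
  exact h1.trans h2

theorem FreyInt_a₂ : 4 * P.freyCurveInt.a₂ = P.b ^ P.p - 1 - P.a ^ P.p := by
  have h : (4 : ℤ) ∣ P.b ^ P.p - 1 - P.a ^ P.p := by
    have h1 : (4 : ℤ) ∣ P.b ^ P.p := Dvd.dvd.trans (by norm_num) (FreyInt_dvd_b_pow P)
    have h2 := FreyInt_a_pow P
    have : P.b ^ P.p - 1 - P.a ^ P.p = P.b ^ P.p - (P.a ^ P.p + 1) := by ring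
    rw [this]
    exact dvd_sub h1 h2
  exact Int.mul_ediv_cancel' h

theorem FreyInt_a₄ : 16 * P.freyCurveInt.a₄ = -(P.a ^ P.p) * P.b ^ P.p := by
  have h : (16 : ℤ) ∣ -(P.a ^ P.p) * P.b ^ P.p :=
    Dvd.dvd.mul_left (Dvd.dvd.trans (by norm_num) (FreyInt_dvd_b_pow P)) _
  exact Int.mul_ediv_cancel' h

/-- **the Frey curve is the base change of its integral model.** -/
theorem freyCurveInt_map : P.freyCurveInt.map (Int.castRingHom ℚ) = P.freyCurve := by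
  have h2 := congrArg (fun n : ℤ => (n : ℚ)) (FreyInt_a₂ P)
  have h4 := congrArg (fun n : ℤ => (n : ℚ)) (FreyInt_a₄ P)
  simp only [Int.cast_mul, Int.cast_sub, Int.cast_pow, Int.cast_neg, Int.cast_ofNat,
    Int.cast_one] at h2 h4
  ext
  · simp [FreyPackage.freyCurveInt, FreyPackage.freyCurve]
  · show ((P.freyCurveInt.a₂ : ℤ) : ℚ) = ((P.b : ℚ) ^ P.p - 1 - (P.a : ℚ) ^ P.p) / 4
    rw [← h2]; ring
  · simp [FreyPackage.freyCurveInt, FreyPackage.freyCurve]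
  · show ((P.freyCurveInt.a₄ : ℤ) : ℚ) = -((P.a : ℚ) ^ P.p) * ((P.b : ℚ) ^ P.p) / 16
    rw [← h4]; ring
  · simp [FreyPackage.freyCurveInt, FreyPackage.freyCurve]

theorem FreyInt_a₁ : P.freyCurveInt.a₁ = 1 := rfl
theorem FreyInt_a₃ : P.freyCurveInt.a₃ = 0 := rfl
theorem FreyInt_a₆ : P.freyCurveInt.a₆ = 0 := rfl

theorem freyCurveInt_b₂ : P.freyCurveInt.b₂ = P.b ^ P.p - P.a ^ P.p := by
  rw [WeierstrassCurve.b₂, FreyInt_a₁, FreyInt_a₂]; ring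

theorem freyCurveInt_b₄ : 8 * P.freyCurveInt.b₄ = -(P.a ^ P.p) * P.b ^ P.p := by
  rw [WeierstrassCurve.b₄, FreyInt_a₁, FreyInt_a₃, ← FreyInt_a₄]; ring

theorem freyCurveInt_b₆ : P.freyCurveInt.b₆ = 0 := by
  rw [WeierstrassCurve.b₆, FreyInt_a₃, FreyInt_a₆]; ring

/-- `c₄ = a^{2p} + a^p b^p + b^{2p}`. -/
theorem freyCurveInt_c₄ :
    P.freyCurveInt.c₄ = P.a ^ (2 * P.p) + P.a ^ P.p * P.b ^ P.p + P.b ^ (2 * P.p) := by
  have h4 := freyCurveInt_b₄ P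
  rw [WeierstrassCurve.c₄, freyCurveInt_b₂]
  rw [two_mul, pow_add, pow_add]
  linear_combination (-3 : ℤ) * h4

/-- `2⁸ Δ = (abc)^{2p}`. -/
theorem freyCurveInt_Δ : 256 * P.freyCurveInt.Δ = (P.a * P.b * P.c) ^ (2 * P.p) := by
  have h2 := FreyInt_a₂ P
  have h4 := FreyInt_a₄ P
  have hF := P.hFLT
  have e : (P.a * P.b * P.c) ^ (2 * P.p) = (P.a ^ P.p) ^ 2 * (P.b ^ P.p) ^ 2 * (P.c ^ P.p) ^ 2 := by
    rw [mul_pow, mul_pow, mul_comm 2 P.p, pow_mul, pow_mul, pow_mul]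
  rw [e, ← hF]
  simp only [WeierstrassCurve.Δ, WeierstrassCurve.b₂, WeierstrassCurve.b₄, WeierstrassCurve.b₆,
    WeierstrassCurve.b₈, FreyInt_a₁, FreyInt_a₃, FreyInt_a₆]
  generalize P.a ^ P.p = x at *
  generalize P.b ^ P.p = y at *
  generalize P.freyCurveInt.a₂ = s at *
  generalize P.freyCurveInt.a₄ = t at *
  have hs : y - x = 4 * s + 1 := by linarith
  have ht : x * y = -16 * t := by linarith
  have e2 : x ^ 2 * y ^ 2 * (x + y) ^ 2 = (x * y) ^ 2 * ((y - x) ^ 2 + 4 * (x * y)) := by ring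
  rw [e2, hs, ht]
  ring

theorem freyCurveInt_Δ_ne_zero : P.freyCurveInt.Δ ≠ 0 := by
  intro h
  have h1 := freyCurveInt_Δ P
  rw [h, mul_zero] at h1
  exact pow_ne_zero _ P.habc0 h1.symm

/-- reduction types.  `ℓ ∣ abc`: multiplicative reduction. -/
theorem freyCurveInt_not_dvd_c₄ {ℓ : ℕ} (hℓ : ℓ.Prime) (h : (ℓ : ℤ) ∣ P.a * P.b * P.c) :
    ¬ (ℓ : ℤ) ∣ P.freyCurveInt.c₄ := by
  have hℓ' : Prime (ℓ : ℤ) := Nat.prime_iff_prime_int.1 hℓ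
  have hp0 : P.p ≠ 0 := P.hp0
  have h2p0 : 2 * P.p ≠ 0 := by omega
  have hcop : ∀ x y : ℤ, gcd x y = 1 → (ℓ : ℤ) ∣ x → (ℓ : ℤ) ∣ y → False := by
    intro x y hxy hx hy
    have := dvd_gcd hx hy
    rw [hxy] at this
    exact hℓ'.not_isUnit (isUnit_of_dvd_one this)
  rw [freyCurveInt_c₄]
  intro hc
  rcases hℓ'.dvd_or_dvd h with h | h
  · rcases hℓ'.dvd_or_dvd h with h | h
    · -- ℓ ∣ a
      have h1 : (ℓ : ℤ) ∣ P.a ^ (2 * P.p) + P.a ^ P.p * P.b ^ P.p :=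
        dvd_add (dvd_pow h h2p0) (Dvd.dvd.mul_right (dvd_pow h hp0) _)
      have h2 := (dvd_add_right h1).1 hc
      exact hcop _ _ P.hgcdab h (hℓ'.dvd_of_dvd_pow h2)
    · -- ℓ ∣ b
      have h1 : (ℓ : ℤ) ∣ P.a ^ P.p * P.b ^ P.p + P.b ^ (2 * P.p) :=
        dvd_add (Dvd.dvd.mul_left (dvd_pow h hp0) _) (dvd_pow h h2p0)
      rw [add_assoc] at hc
      have h2 := (dvd_add_left h1).1 hc
      exact hcop _ _ P.hgcdab (hℓ'.dvd_of_dvd_pow h2) h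
  · -- ℓ ∣ c
    have h1 : (ℓ : ℤ) ∣ P.a ^ P.p * (P.a ^ P.p + P.b ^ P.p) := by
      rw [P.hFLT]
      exact Dvd.dvd.mul_left (dvd_pow h hp0) _
    have e : P.a ^ (2 * P.p) + P.a ^ P.p * P.b ^ P.p + P.b ^ (2 * P.p)
        = P.a ^ P.p * (P.a ^ P.p + P.b ^ P.p) + P.b ^ (2 * P.p) := by
      rw [two_mul, pow_add]; ring
    rw [e] at hc
    have h2 := (dvd_add_right h1).1 hc
    exact hcop _ _ P.hgcdbc (hℓ'.dvd_of_dvd_pow h2) h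

theorem freyCurveInt_dvd_Δ {ℓ : ℕ} (hℓ : ℓ.Prime) (h : (ℓ : ℤ) ∣ P.a * P.b * P.c) :
    (ℓ : ℤ) ∣ P.freyCurveInt.Δ := by
  have hℓ' : Prime (ℓ : ℤ) := Nat.prime_iff_prime_int.1 hℓ
  have h1 := freyCurveInt_Δ P
  by_cases h2 : ℓ = 2
  · subst h2
    -- `2^10 ∣ b^{2p}`
    have hb := FreyInt_dvd_b_pow P
    obtain ⟨k, hk⟩ := hb
    have e : (P.a * P.b * P.c) ^ (2 * P.p) = 256 * (4 * (k ^ 2 * (P.a * P.c) ^ (2 * P.p))) := by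
      have : (P.a * P.b * P.c) ^ (2 * P.p) = (P.b ^ P.p) ^ 2 * (P.a * P.c) ^ (2 * P.p) := by
        rw [← pow_mul, mul_comm P.p 2, ← mul_pow]; ring_nf
      rw [this, hk]; ring
    rw [e] at h1
    have h3 : P.freyCurveInt.Δ = 4 * (k ^ 2 * (P.a * P.c) ^ (2 * P.p)) := by linarith
    rw [h3]
    exact ⟨2 * (k ^ 2 * (P.a * P.c) ^ (2 * P.p)), by push_cast; ring⟩
  · have h3 : (ℓ : ℤ) ∣ 256 * P.freyCurveInt.Δ := by
      rw [h1]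
      exact dvd_pow h (by have := P.hp0; omega)
    rcases hℓ'.dvd_or_dvd h3 with h4 | h4
    · exfalso
      have h5 : (ℓ : ℤ) ∣ 2 ^ 8 := by norm_num; exact h4
      have h6 := hℓ'.dvd_of_dvd_pow h5
      have h7 : ℓ ∣ 2 := by exact_mod_cast h6
      exact h2 ((Nat.prime_dvd_prime_iff_eq hℓ Nat.prime_two).1 h7)
    · exact h4

/-- `ℓ ∤ abc`: good reduction. -/
theorem freyCurveInt_not_dvd_Δ {ℓ : ℕ} (hℓ : ℓ.Prime) (h : ¬ (ℓ : ℤ) ∣ P.a * P.b * P.c) :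
    ¬ (ℓ : ℤ) ∣ P.freyCurveInt.Δ := by
  have hℓ' : Prime (ℓ : ℤ) := Nat.prime_iff_prime_int.1 hℓ
  intro hd
  have h1 := freyCurveInt_Δ P
  have h2 : (ℓ : ℤ) ∣ (P.a * P.b * P.c) ^ (2 * P.p) := by
    rw [← h1]
    exact Dvd.dvd.mul_left hd _
  exact h (hℓ'.dvd_of_dvd_pow h2)

theorem freyCurveInt_dvd_Δ_iff {ℓ : ℕ} (hℓ : ℓ.Prime) :
    (ℓ : ℤ) ∣ P.freyCurveInt.Δ ↔ (ℓ : ℤ) ∣ P.a * P.b * P.c :=
  ⟨fun h => by
    by_contra hn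
    exact freyCurveInt_not_dvd_Δ P hℓ hn h, freyCurveInt_dvd_Δ P hℓ⟩

end Fermat.Agent.S12
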