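import Fermat.Agent.S12.Ident
import Fermat.Agent.S13.FreyFacts

/-!
# S12 (A) : the identity for the Frey curve

`c^(p²) Π₃² = b^(p²) Π₁² + a^(p²) Π₂²`, `Π₁, Π₂, Π₃ = ∏_{0<k<p} (x(kQ) - e)` for
`e = a^p/4, -b^p/4, 0`.
-/

set_option autoImplicit false

namespace Fermat.Agent.S12

open WeierstrassCurve WeierstrassCurve.Affine Fermat.Agent.S05 Fermat.Agent.S13 FreyPackage

variable (P : FreyPackage)

theorem frey_c₄ : P.freyCurve.c₄ =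
    (P.a : ℚ) ^ P.p * (P.a : ℚ) ^ P.p + (P.a : ℚ) ^ P.p * (P.b : ℚ) ^ P.p +
      (P.b : ℚ) ^ P.p * (P.b : ℚ) ^ P.p := by
  rw [WeierstrassCurve.c₄, frey_b₂, frey_b₄]
  ring

theorem frey_c₆ : P.freyCurve.c₆ =
    -(((P.b : ℚ) ^ P.p - (P.a : ℚ) ^ P.p) * (2 * (P.b : ℚ) ^ P.p + (P.a : ℚ) ^ P.p) *
      ((P.b : ℚ) ^ P.p + 2 * (P.a : ℚ) ^ P.p)) / 2 := by
  rw [WeierstrassCurve.c₆, frey_b₂, frey_b₄, frey_b₆]
  ring

theorem frey_c₄_ne_zero : P.freyCurve.c₄ ≠ 0 := by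
  rw [frey_c₄]
  have ha : (P.a : ℚ) ^ P.p ≠ 0 := pow_ne_zero _ (by exact_mod_cast P.ha0)
  generalize (P.a : ℚ) ^ P.p = A at ha ⊢
  generalize (P.b : ℚ) ^ P.p = B
  have h1 : 0 < A * A := mul_self_pos.2 ha
  nlinarith [mul_self_nonneg (A + 2 * B), mul_self_nonneg (A + B)]

theorem frey_four_dvd_bp : (4 : ℤ) ∣ P.b ^ P.p := by
  obtain ⟨k, hk⟩ := frey_two_dvd_b P
  have hp : P.p = 2 + (P.p - 2) := by have := P.hp5; omega
  rw [hk, hp, pow_add, mul_pow]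
  exact Dvd.dvd.mul_right (Dvd.dvd.mul_right (by norm_num) _) _

theorem frey_c₆_ne_zero : P.freyCurve.c₆ ≠ 0 := by
  rw [frey_c₆]
  obtain ⟨k, hk⟩ := frey_four_dvd_bp P
  obtain ⟨m, hm⟩ := (frey_odd_a P).pow (n := P.p)
  have h1 : P.b ^ P.p - P.a ^ P.p ≠ 0 := by omega
  have h2 : 2 * P.b ^ P.p + P.a ^ P.p ≠ 0 := by omega
  have h3 : P.b ^ P.p + 2 * P.a ^ P.p ≠ 0 := by omega
  have h1' : (P.b : ℚ) ^ P.p - (P.a : ℚ) ^ P.p ≠ 0 := by exact_mod_cast h1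
  have h2' : 2 * (P.b : ℚ) ^ P.p + (P.a : ℚ) ^ P.p ≠ 0 := by exact_mod_cast h2
  have h3' : (P.b : ℚ) ^ P.p + 2 * (P.a : ℚ) ^ P.p ≠ 0 := by exact_mod_cast h3
  exact div_ne_zero (neg_ne_zero.2 (mul_ne_zero (mul_ne_zero h1' h2') h3')) two_ne_zero

/-- `Ψ₂Sq = 4 X (X - a^p/4) (X + b^p/4)` -/
theorem frey_Ψ₂Sq_eval (x : Kb) : (P.freyCurve⁄Kb).Ψ₂Sq.eval x =
    4 * x * (x - (P.a : Kb) ^ P.p / 4) * (x + (P.b : Kb) ^ P.p / 4) := by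
  have h2 : (P.freyCurve⁄Kb).b₂ = algebraMap ℚ Kb P.freyCurve.b₂ := WeierstrassCurve.map_b₂ _ _
  have h4 : (P.freyCurve⁄Kb).b₄ = algebraMap ℚ Kb P.freyCurve.b₄ := WeierstrassCurve.map_b₄ _ _
  have h0 : (P.freyCurve⁄Kb).Ψ₂Sq.eval x = 4 * x ^ 3 + (P.freyCurve⁄Kb).b₂ * x ^ 2 +
      2 * (P.freyCurve⁄Kb).b₄ * x + (P.freyCurve⁄Kb).b₆ := by
    rw [WeierstrassCurve.Ψ₂Sq]
    simp only [Polynomial.eval_add, Polynomial.eval_mul, Polynomial.eval_pow, Polynomial.eval_C,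
      Polynomial.eval_X]
  rw [h0, h2, h4, frey_b₆_Kb, frey_b₂, frey_b₄]
  simp only [map_sub, map_pow, map_intCast, map_div₀, map_neg, map_mul, map_ofNat]
  ring

/-- **(A) for the Frey curve.** -/
theorem frey_ident (Q : Pt P) (hQ : addOrderOf Q = P.p) :
    ((P.c : Kb) ^ P.p) ^ P.p * KK (P.freyCurve⁄Kb) P.p Q 0 ^ 2 =
      ((P.b : Kb) ^ P.p) ^ P.p * KK (P.freyCurve⁄Kb) P.p Q ((P.a : Kb) ^ P.p / 4) ^ 2 +
        ((P.a : Kb) ^ P.p) ^ P.p * KK (P.freyCurve⁄Kb) P.p Q (-((P.b : Kb) ^ P.p) / 4) ^ 2 := by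
  have hFLT : (P.a : Kb) ^ P.p + (P.b : Kb) ^ P.p = (P.c : Kb) ^ P.p := by exact_mod_cast P.hFLT
  have ha : (P.a : Kb) ^ P.p ≠ 0 := pow_ne_zero _ (by exact_mod_cast P.ha0)
  have hb : (P.b : Kb) ^ P.p ≠ 0 := pow_ne_zero _ (by exact_mod_cast P.hb0)
  have hc : (P.c : Kb) ^ P.p ≠ 0 := pow_ne_zero _ (by exact_mod_cast P.hc0)
  have hc4 : (P.freyCurve⁄Kb).c₄ ≠ 0 := by
    have : (P.freyCurve⁄Kb).c₄ = algebraMap ℚ Kb P.freyCurve.c₄ := WeierstrassCurve.map_c₄ _ _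
    rw [this]
    exact (map_ne_zero _).mpr (frey_c₄_ne_zero P)
  have hc6 : (P.freyCurve⁄Kb).c₆ ≠ 0 := by
    have : (P.freyCurve⁄Kb).c₆ = algebraMap ℚ Kb P.freyCurve.c₆ := WeierstrassCurve.map_c₆ _ _
    rw [this]
    exact (map_ne_zero _).mpr (frey_c₆_ne_zero P)
  have hp2 : P.p ≠ 2 := by have := P.hp5; omega
  have h := ident_Qbar (P.freyCurve⁄Kb) (frey_Δ_Kb_ne_zero P) hc4 hc6 P.pp hp2 Q hQ
    ![(P.a : Kb) ^ P.p / 4, -((P.b : Kb) ^ P.p) / 4, 0] ?_ ?_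
  · simp only [Matrix.cons_val_zero, Matrix.cons_val_one, Matrix.cons_val] at h
    have e1 : (P.a : Kb) ^ P.p / 4 - -((P.b : Kb) ^ P.p) / 4 = (P.c : Kb) ^ P.p / 4 := by
      rw [← hFLT]; ring
    have e2 : -((P.b : Kb) ^ P.p) / 4 - 0 = -((P.b : Kb) ^ P.p / 4) := by ring
    have e3 : 0 - (P.a : Kb) ^ P.p / 4 = -((P.a : Kb) ^ P.p / 4) := by ring
    rw [e1, e2, e3, P.hp_odd.neg_pow, P.hp_odd.neg_pow, div_pow, div_pow, div_pow] at h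
    have h4 : (4 : Kb) ^ P.p ≠ 0 := pow_ne_zero _ (by norm_num)
    apply mul_left_cancel₀ (inv_ne_zero h4)
    linear_combination h
  · have h01 : (P.a : Kb) ^ P.p / 4 ≠ -((P.b : Kb) ^ P.p) / 4 := by
      intro h0
      apply hc
      rw [← hFLT]
      linear_combination 4 * h0
    have h02 : (P.a : Kb) ^ P.p / 4 ≠ 0 := div_ne_zero ha (by norm_num)
    have h12 : -((P.b : Kb) ^ P.p) / 4 ≠ 0 := div_ne_zero (neg_ne_zero.2 hb) (by norm_num)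
    intro i j hij
    fin_cases i <;> fin_cases j <;> first
      | rfl
      | exact absurd hij h01
      | exact absurd hij h02
      | exact absurd hij h12
      | exact absurd hij.symm h01
      | exact absurd hij.symm h02
      | exact absurd hij.symm h12
  · intro i
    rw [frey_Ψ₂Sq_eval]
    fin_cases i
    · show 4 * ((P.a : Kb) ^ P.p / 4) * ((P.a : Kb) ^ P.p / 4 - (P.a : Kb) ^ P.p / 4) * _ = 0
      ring
    · show 4 * (-((P.b : Kb) ^ P.p) / 4) * _ *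
        (-((P.b : Kb) ^ P.p) / 4 + (P.b : Kb) ^ P.p / 4) = 0
      ring
    · show 4 * (0 : Kb) * _ * _ = 0
      ring

end Fermat.Agent.S12
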