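import Fermat.Agent.S15.Mod.D.Export
import Fermat.Agent.EL.MapPt

/-!
# S12 (A) : the modular equation for the 2-torsion

`W` a Weierstrass curve over a field of characteristic zero embedding into `ℂ`, `E 0, E 1, E 2` the
three roots of `Ψ₂Sq`, `Q` a point of odd prime order `p`, `K_i = ∏_{0<k<p} (x(kQ) - E_i)`.  Then
`(E₀-E₁)^p K₂² + (E₁-E₂)^p K₀² + (E₂-E₀)^p K₁² = 0`.
-/

set_option autoImplicit false

open UpperHalfPlane
open scoped Topology PeriodPair

namespace Fermat.Agent.S12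

open WeierstrassCurve WeierstrassCurve.Affine Fermat.Agent.S05 Fermat.Agent.S15.Mod.U
  Fermat.Agent.S15.Mod.D Fermat.Agent.Lib.JInjective

/-- lattice form, for a triple of distinct indices. -/
theorem ident_lat (L : PeriodPair) (n : ℕ) (hn : n ≠ 0) (hodd : Odd n) (hΔ : disc L ≠ 0)
    (hΔ' : disc (divPair L n hn) ≠ 0) {i j k : Fin 3} (hij : i ≠ j) (hik : i ≠ k) (hjk : j ≠ k) :
    (ev L (hp L) i - ev L (hp L) j) ^ n * Kc L n (ev L (hp L) k) ^ 2 +
      (ev L (hp L) j - ev L (hp L) k) ^ n * Kc L n (ev L (hp L) i) ^ 2 +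
      (ev L (hp L) k - ev L (hp L) i) ^ n * Kc L n (ev L (hp L) j) ^ 2 = 0 := by
  have h1 := ev_div_sub L n hn hodd hΔ hΔ' hij hik hjk
  have h2 := ev_div_sub L n hn hodd hΔ hΔ' hjk hij.symm hik.symm
  have h3 := ev_div_sub L n hn hodd hΔ hΔ' hik.symm hjk.symm hij
  linear_combination (-Kc L n (ev L (hp L) k)) * h1 - Kc L n (ev L (hp L) i) * h2 -
    Kc L n (ev L (hp L) j) * h3

/-- the products `K_e = ∏_{0<k<p} (x(kQ) - e)`. -/
noncomputable def KK {F : Type} [Field F] [DecidableEq F] (W : WeierstrassCurve.Affine F) (p : ℕ)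
    (Q : W.Point) (e : F) : F :=
  ∏ k ∈ Finset.Ico 1 p, (xc (k • Q) - e)

theorem Ident_xc_mapPt {F F' : Type} [Field F] [Field F'] [DecidableEq F] [DecidableEq F']
    (f : F →+* F') {V : WeierstrassCurve F} {V' : WeierstrassCurve F'} (h : V.map f = V')
    (P : V.toAffine.Point) : xc (EL.mapPt f h P) = f (xc P) := by
  rcases P with _ | ⟨x, y, hxy⟩
  · exact (map_zero f).symm
  · rfl

theorem KK_map {F F' : Type} [Field F] [Field F'] [DecidableEq F] [DecidableEq F']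
    (f : F →+* F') (V : WeierstrassCurve F) (p : ℕ) (Q : V.toAffine.Point) (e : F) :
    KK (V.map f).toAffine p (EL.mapPt f rfl Q) (f e) = f (KK V.toAffine p Q e) := by
  unfold KK
  rw [map_prod]
  refine Finset.prod_congr rfl fun k _ => ?_
  rw [map_sub, ← map_nsmul, Ident_xc_mapPt]

/-- over `ℂ`. -/
theorem ident_complex [DecidableEq ℂ] (W : WeierstrassCurve.Affine ℂ) (hΔ : W.Δ ≠ 0)
    (hc4 : W.c₄ ≠ 0) (hc6 : W.c₆ ≠ 0) {p : ℕ} (hpp : p.Prime) (hp2 : p ≠ 2) (Q : W.Point)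
    (hQ : addOrderOf Q = p) (E : Fin 3 → ℂ) (hE : Function.Injective E)
    (hroot : ∀ i, W.Ψ₂Sq.eval (E i) = 0) :
    (E 0 - E 1) ^ p * KK W p Q (E 2) ^ 2 + (E 1 - E 2) ^ p * KK W p Q (E 0) ^ 2 +
      (E 2 - E 0) ^ p * KK W p Q (E 1) ^ 2 = 0 := by
  obtain ⟨τ, d, hd, h4, h6, hx⟩ := exists_unif W hΔ hc4 hc6 hpp hp2 Q hQ
  set L := pp d hd τ with hL
  have hdisc : disc L ≠ 0 := disc_pp_ne_zero d hd τ
  have hn : p ≠ 0 := hpp.ne_zero
  have hn' : (p : ℂ) ≠ 0 := by exact_mod_cast hn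
  have hd' : d / p ≠ 0 := div_ne_zero hd hn'
  have hdisc' : disc (divPair L p hn) ≠ 0 := by
    have him : 0 < ((p : ℂ) * (τ : ℂ)).im := by
      rw [Complex.mul_im, Complex.natCast_re, Complex.natCast_im, zero_mul, add_zero]
      exact mul_pos (by exact_mod_cast hpp.pos) τ.im_pos
    rw [hL, divPair_pp d hd τ ⟨(p : ℂ) * (τ : ℂ), him⟩ p hn rfl hd']
    exact disc_pp_ne_zero (d / p) hd' _
  have H := halfSys_self L
  -- the roots
  have hr : ∀ i, ∃ j, E i + W.b₂ / 12 = ev L (hp L) j := by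
    intro i
    apply exists_ev_of_root H hdisc
    have h3 := psi2sq_eq W (E i)
    rw [hroot i, h4, h6] at h3
    linear_combination h3
  choose σ hσ using hr
  have hσi : Function.Injective σ := by
    intro a b hab
    apply hE
    have := hσ a
    rw [hab, ← hσ b] at this
    linear_combination this
  -- the products
  have hK : ∀ i, KK W p Q (E i) = Kc L p (ev L (hp L) (σ i)) := by
    intro i
    unfold KK Kc
    refine Finset.prod_congr rfl fun k hk => ?_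
    obtain ⟨hk1, hk2⟩ := Finset.mem_Ico.1 hk
    have := hx k hk1 hk2
    rw [cpt_pp, ← this, ← hσ i]
    ring
  have hsub : ∀ i j, E i - E j = ev L (hp L) (σ i) - ev L (hp L) (σ j) := by
    intro i j
    rw [← hσ i, ← hσ j]
    ring
  rw [hK, hK, hK, hsub, hsub, hsub]
  exact ident_lat L p hn (hpp.odd_of_ne_two hp2) hdisc hdisc' (hσi.ne (by decide))
    (hσi.ne (by decide)) (hσi.ne (by decide))

/-- **(A)** over any field admitting a ring homomorphism to `ℂ`. -/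
theorem ident_of_hom {F : Type} [Field F] [DecidableEq F] (ι : F →+* ℂ) (W : WeierstrassCurve F)
    (hΔ : W.Δ ≠ 0) (hc4 : W.c₄ ≠ 0) (hc6 : W.c₆ ≠ 0) {p : ℕ} (hp : p.Prime) (hp2 : p ≠ 2)
    (Q : W.toAffine.Point) (hQ : addOrderOf Q = p) (E : Fin 3 → F) (hE : Function.Injective E)
    (hroot : ∀ i, W.Ψ₂Sq.eval (E i) = 0) :
    (E 0 - E 1) ^ p * KK W.toAffine p Q (E 2) ^ 2 + (E 1 - E 2) ^ p * KK W.toAffine p Q (E 0) ^ 2 +
      (E 2 - E 0) ^ p * KK W.toAffine p Q (E 1) ^ 2 = 0 := by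
  classical
  have hι : Function.Injective ι := ι.injective
  have hne : ∀ a : F, a ≠ 0 → ι a ≠ 0 := fun a ha => (map_ne_zero ι).2 ha
  have h := ident_complex (W.map ι).toAffine
    (by rw [WeierstrassCurve.map_Δ]; exact hne _ hΔ)
    (by rw [WeierstrassCurve.map_c₄]; exact hne _ hc4)
    (by rw [WeierstrassCurve.map_c₆]; exact hne _ hc6) hp hp2 (EL.mapPt ι rfl Q)
    (by rw [addOrderOf_injective _ (EL.mapPt_injective ι rfl), hQ]) (fun i => ι (E i))
    (hι.comp hE) (fun i => by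
      rw [WeierstrassCurve.map_Ψ₂Sq, Polynomial.eval_map, Polynomial.eval₂_at_apply, hroot i,
        map_zero])
  simp only [KK_map] at h
  apply hι
  rw [map_zero, ← h]
  simp only [map_add, map_mul, map_pow, map_sub]

/-- **(A)** over `Q̄`. -/
theorem ident_Qbar [DecidableEq (AlgebraicClosure ℚ)] (W : WeierstrassCurve (AlgebraicClosure ℚ))
    (hΔ : W.Δ ≠ 0) (hc4 : W.c₄ ≠ 0) (hc6 : W.c₆ ≠ 0) {p : ℕ} (hp : p.Prime) (hp2 : p ≠ 2)
    (Q : W.toAffine.Point) (hQ : addOrderOf Q = p) (E : Fin 3 → AlgebraicClosure ℚ)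
    (hE : Function.Injective E) (hroot : ∀ i, W.Ψ₂Sq.eval (E i) = 0) :
    (E 0 - E 1) ^ p * KK W.toAffine p Q (E 2) ^ 2 + (E 1 - E 2) ^ p * KK W.toAffine p Q (E 0) ^ 2 +
      (E 2 - E 0) ^ p * KK W.toAffine p Q (E 1) ^ 2 = 0 := by
  obtain ⟨ι⟩ : Nonempty (AlgebraicClosure ℚ →+* ℂ) := by
    have : Algebra.IsAlgebraic ℚ (AlgebraicClosure ℚ) := AlgebraicClosure.isAlgebraic ℚ
    exact ⟨(IsAlgClosed.lift (R := ℚ) (S := AlgebraicClosure ℚ) (M := ℂ)).toRingHom⟩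
  exact ident_of_hom ι W hΔ hc4 hc6 hp hp2 Q hQ E hE hroot

end Fermat.Agent.S12
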