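import Fermat.Agent.S12.IdentFrey

/-!
# S12 (A'), rationality of the products `Π_e = ∏_{0<k<p} (x(kQ) - e)` when `⟨Q⟩` is Galois stable
-/

set_option autoImplicit false

namespace Fermat.Agent.S12

open WeierstrassCurve WeierstrassCurve.Affine Fermat.Agent.S05 Fermat.Agent.S13 FreyPackage

/-- reindexing `k ↦ k m mod p` of the nonzero multiples of a point of prime order. -/
theorem prod_nsmul_reindex {G M : Type*} [AddGroup G] [CommMonoid M] {p : ℕ} (hp : p.Prime) {Q : G}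
    (hQ : addOrderOf Q = p) {m : ℕ} (hm : ¬ p ∣ m) (g : G → M) :
    ∏ k ∈ Finset.Ico 1 p, g (k • (m • Q)) = ∏ k ∈ Finset.Ico 1 p, g (k • Q) := by
  have hinj : Set.InjOn (fun k : ℕ => (k * m) % p) (Finset.Ico 1 p : Finset ℕ) := by
    intro k hk k' hk' h
    obtain ⟨hk1, hk2⟩ := Finset.mem_Ico.1 (Finset.mem_coe.1 hk)
    obtain ⟨hk1', hk2'⟩ := Finset.mem_Ico.1 (Finset.mem_coe.1 hk')
    have h1 : k * m ≡ k' * m [MOD p] := h
    have hcop : Nat.gcd p m = 1 := (Nat.Prime.coprime_iff_not_dvd hp).2 hm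
    have h2 : k ≡ k' [MOD p] := Nat.ModEq.cancel_right_of_coprime hcop h1
    exact Nat.ModEq.eq_of_lt_of_lt h2 hk2 hk2'
  have himg : (Finset.Ico 1 p).image (fun k : ℕ => (k * m) % p) = Finset.Ico 1 p := by
    apply Finset.eq_of_subset_of_card_le
    · intro j hj
      obtain ⟨k, hk, rfl⟩ := Finset.mem_image.1 hj
      obtain ⟨hk1, hk2⟩ := Finset.mem_Ico.1 hk
      refine Finset.mem_Ico.2 ⟨?_, Nat.mod_lt _ hp.pos⟩
      rw [Nat.one_le_iff_ne_zero]
      intro h0
      rcases (Nat.Prime.dvd_mul hp).1 (Nat.dvd_of_mod_eq_zero h0) with h | h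
      · exact absurd (Nat.le_of_dvd (by omega) h) (by omega)
      · exact hm h
    · rw [Finset.card_image_of_injOn hinj]
  conv_rhs => rw [← himg, Finset.prod_image hinj]
  refine Finset.prod_congr rfl fun k _ => ?_
  rw [← mul_nsmul', ← hQ, mod_addOrderOf_nsmul]

theorem KK_nsmul {F : Type} [Field F] [DecidableEq F] (W : WeierstrassCurve.Affine F) {p : ℕ}
    (hp : p.Prime) {Q : W.Point} (hQ : addOrderOf Q = p) {m : ℕ} (hm : ¬ p ∣ m) (e : F) :
    KK W p (m • Q) e = KK W p Q e :=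
  prod_nsmul_reindex hp hQ hm fun T => xc T - e

variable (P : FreyPackage)

theorem KK_smul (σ : GalQ) (Q : Pt P) (e : Kb) :
    KK (P.freyCurve⁄Kb) P.p (σ • Q) (σ e) = σ (KK (P.freyCurve⁄Kb) P.p Q e) := by
  unfold KK
  rw [map_prod]
  refine Finset.prod_congr rfl fun k _ => ?_
  rw [map_sub, ← xc_smul]
  congr 2
  exact ((DistribSMul.toAddMonoidHom (Pt P) σ).map_nsmul k Q).symm

/-- the products are fixed by every `σ` stabilising `⟨Q⟩`. -/
theorem KK_fixed (σ : GalQ) {Q : Pt P} (hQ : addOrderOf Q = P.p) {m : ℕ} (hσ : σ • Q = m • Q)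
    {e : Kb} (he : σ e = e) :
    σ (KK (P.freyCurve⁄Kb) P.p Q e) = KK (P.freyCurve⁄Kb) P.p Q e := by
  have hm : ¬ P.p ∣ m := by
    intro h
    have h0 : m • Q = 0 := by
      rw [← hQ] at h
      exact addOrderOf_dvd_iff_nsmul_eq_zero.1 h
    rw [h0] at hσ
    have hQ0 : Q = 0 := by
      have := congrArg (fun T => σ⁻¹ • T) hσ
      simp only [inv_smul_smul] at this
      rw [this]
      exact smul_zero (A := Pt P) σ⁻¹
    rw [hQ0, addOrderOf_zero] at hQ
    exact P.pp.one_lt.ne hQ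
  rw [← KK_smul, he, hσ, KK_nsmul _ P.pp hQ hm]

end Fermat.Agent.S12
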