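import Fermat.Agent.S13
import Fermat.Agent.S12.RatSign
import Fermat.Prelude.Def_GaloisRep_ComplexConjugation

/-!
# S12: the real place (elementary end of the proof, no analytic identity)

`N` a Galois-stable line of `E[p]`, `e ∈ {0, -b^p/4}` (abscissas of two points of order 2).
If `x(T) - e` is never in the maximal ideal of (one) `A ∣ q`, for all primes `q`, then
`Pi_e = ∏_{T ∈ N \ 0} (x(T) - e)` is the inverse of an integer, so `|Pi_e| ≤ 1`.
Complex conjugation acts on `N` by a sign, so all `x(T)` are real and all `ψ(T)²` have this sign; the duplication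
formula `(x(2R) - e) ψ(R)² = ((x(R) - e)² - c_e)²` shows that all `x(T) - e` have this sign too, so
`|x(T) - e| ≥ |b^p|/4 ≥ 8` for the farther `e`.
-/

set_option autoImplicit false
open WeierstrassCurve WeierstrassCurve.Affine WeierstrassCurve.Affine.Point
open FreyPackage

namespace Fermat.Agent.S12

open Fermat.Agent.S05 Fermat.Agent.S13

section complex

open Complex ComplexConjugate

lemma Real_nonneg_of_real {z t s : ℂ} (hz : conj z = z) (ht : conj t = t) (hs : conj s = s)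
    (hs0 : s ≠ 0) (h : z * s ^ 2 = t ^ 2) : 0 ≤ z.re := by
  obtain ⟨a, rfl⟩ := Complex.conj_eq_iff_real.mp hz
  obtain ⟨b, rfl⟩ := Complex.conj_eq_iff_real.mp ht
  obtain ⟨c, rfl⟩ := Complex.conj_eq_iff_real.mp hs
  have hc : c ≠ 0 := by
    rintro rfl
    exact hs0 (by simp)
  have h' : a * c ^ 2 = b ^ 2 := by exact_mod_cast h
  rw [Complex.ofReal_re]
  have hc2 : 0 < c ^ 2 := by positivity
  by_contra hneg
  push Not at hneg
  nlinarith [sq_nonneg b]

lemma Real_nonpos_of_imag {z t s : ℂ} (hz : conj z = z) (ht : conj t = t) (hs : conj s = -s)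
    (hs0 : s ≠ 0) (h : z * s ^ 2 = t ^ 2) : z.re ≤ 0 := by
  have hs' : conj (s * Complex.I) = s * Complex.I := by
    rw [map_mul, hs, Complex.conj_I]; ring
  have h2 : (-z) * (s * Complex.I) ^ 2 = t ^ 2 := by
    rw [mul_pow, Complex.I_sq, ← h]; ring
  have := Real_nonneg_of_real (z := -z) (by rw [map_neg, hz]) ht hs'
    (mul_ne_zero hs0 Complex.I_ne_zero) h2
  rw [Complex.neg_re] at this
  linarith

end complex

variable (P : FreyPackage)

lemma Real_smul_nsmul (σ : GalQ) (k : ℕ) (x : Tors P) : σ • (k • x) = k • (σ • x) :=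
  map_nsmul (DistribSMul.toAddMonoidHom (Tors P) σ) k x

/-- complex conjugation acts on a stable line by a sign -/
theorem Real_conj_sign (N : Submodule (ZMod P.p) (Tors P)) (hN : IsGaloisStable ℚ N)
    (hbot : N ≠ ⊥) (htop : N ≠ ⊤) :
    (∀ x ∈ N, complexConjugation • x = x) ∨ (∀ x ∈ N, complexConjugation • x = -x) := by
  obtain ⟨x₀, hx₀, h0⟩ := Submodule.exists_mem_ne_zero_of_ne_bot hbot
  obtain ⟨k, hk⟩ := rp_line P N hbot htop hx₀ h0 (hN complexConjugation x₀ hx₀)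
  have hcc : complexConjugation • complexConjugation • x₀ = x₀ := by
    rw [← mul_smul, complexConjugation_mul_self, one_smul]
  have hkk : (k * k) • x₀ = x₀ := by
    rw [mul_nsmul, ← hk, ← Real_smul_nsmul, ← hk, hcc]
  have hp0 : P.p • x₀ = 0 := Subtype.ext (tors_nsmul P x₀)
  have hord : addOrderOf x₀ = P.p := addOrderOf_eq_prime (hp := ⟨P.pp⟩) hp0 h0
  have hz : (((k : ℤ) - 1) * ((k : ℤ) + 1)) • x₀ = 0 := by
    have : ((k : ℤ) - 1) * ((k : ℤ) + 1) = ((k * k : ℕ) : ℤ) - 1 := by push_cast; ring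
    rw [this, sub_smul, natCast_zsmul, hkk, one_smul, sub_self]
  have hdvd : (P.p : ℤ) ∣ ((k : ℤ) - 1) * ((k : ℤ) + 1) := by
    rw [← hord]; exact addOrderOf_dvd_iff_zsmul_eq_zero.mpr hz
  rcases (Nat.prime_iff_prime_int.mp P.pp).dvd_or_dvd hdvd with h | h
  · left
    have h1 : ((k : ℤ) - 1) • x₀ = 0 := by
      rw [← hord] at h; exact addOrderOf_dvd_iff_zsmul_eq_zero.mp h
    have h2 : k • x₀ = x₀ := by
      rw [sub_smul, natCast_zsmul, one_smul, sub_eq_zero] at h1; exact h1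
    intro x hx
    obtain ⟨j, rfl⟩ := rp_line P N hbot htop hx₀ h0 hx
    rw [Real_smul_nsmul, hk, h2]
  · right
    have h1 : ((k : ℤ) + 1) • x₀ = 0 := by
      rw [← hord] at h; exact addOrderOf_dvd_iff_zsmul_eq_zero.mp h
    have h2 : k • x₀ = -x₀ := by
      rw [add_smul, natCast_zsmul, one_smul] at h1; exact eq_neg_of_add_eq_zero_left h1
    intro x hx
    obtain ⟨j, rfl⟩ := rp_line P N hbot htop hx₀ h0 hx
    rw [Real_smul_nsmul, hk, h2, smul_neg]

lemma Real_conj_xc (x : Tors P) (h : complexConjugation • x = x ∨ complexConjugation • x = -x) :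
    starRingEnd ℂ (complexEmbedding (xc (x : Pt P))) = complexEmbedding (xc (x : Pt P)) := by
  rw [← complexEmbedding_complexConjugation, ← xc_smul, ← coe_smul_tors]
  rcases h with h | h
  · rw [h]
  · rw [h]
    show complexEmbedding (xc (-(x : Pt P))) = _
    rw [xc_neg]

lemma Real_half (x : Tors P) : ((P.p + 1) / 2) • x + ((P.p + 1) / 2) • x = x := by
  have hodd : Odd P.p := P.pp.odd_of_ne_two (rp_p_ne_two P)
  obtain ⟨m, hm⟩ := hodd
  have h1 : (P.p + 1) / 2 = m + 1 := by omega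
  have hp0 : P.p • x = 0 := Subtype.ext (tors_nsmul P x)
  rw [h1, ← add_nsmul, show m + 1 + (m + 1) = P.p + 1 by omega, add_nsmul, hp0, one_nsmul, zero_add]

/-- the sign of `x(T) - e` -/
theorem Real_sign (N : Submodule (ZMod P.p) (Tors P)) (e c : ℚ)
    (he : 4 * (e : Kb) ^ 3 + (P.freyCurve⁄Kb).b₂ * (e : Kb) ^ 2 + 2 * (P.freyCurve⁄Kb).b₄ * (e : Kb)
      + (P.freyCurve⁄Kb).b₆ = 0)
    (hc : 2 * (c : Kb) = 6 * (e : Kb) ^ 2 + (P.freyCurve⁄Kb).b₂ * (e : Kb) + (P.freyCurve⁄Kb).b₄) :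
    ((∀ x ∈ N, complexConjugation • x = x) →
      ∀ x ∈ N, x ≠ 0 → (e : ℝ) ≤ (complexEmbedding (xc (x : Pt P))).re) ∧
    ((∀ x ∈ N, complexConjugation • x = -x) →
      ∀ x ∈ N, x ≠ 0 → (complexEmbedding (xc (x : Pt P))).re ≤ (e : ℝ)) := by
  have key : ∀ x ∈ N, x ≠ 0 → ∃ R ∈ N, ps (R : Pt P) ≠ 0 ∧
      (complexEmbedding (xc (x : Pt P)) - (e : ℂ)) * (complexEmbedding (ps (R : Pt P))) ^ 2 =
        ((complexEmbedding (xc (R : Pt P)) - (e : ℂ)) ^ 2 - (c : ℂ)) ^ 2 := by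
    intro x hx hx0
    set R : Tors P := ((P.p + 1) / 2) • x with hR
    have hRR : R + R = x := Real_half P x
    have hRN : R ∈ N := by
      rw [hR, ← Nat.cast_smul_eq_nsmul (ZMod P.p)]
      exact N.smul_mem _ hx
    have hR0 : (R : Pt P) ≠ 0 := by
      intro h
      apply hx0
      have hR0' : R = 0 := Subtype.ext h
      rw [← hRR, hR0', add_zero]
    have hRR' : (R : Pt P) + (R : Pt P) = (x : Pt P) := by
      rw [← hRR]; rfl
    have hRR0 : (R : Pt P) + (R : Pt P) ≠ 0 := by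
      rw [hRR']
      intro h
      exact hx0 (Subtype.ext h)
    set D := xiDataOfCurve (P.freyCurve⁄Kb) two_ne_zero (e : Kb) (c : Kb) he hc with hD
    have hdbl : (xc ((R : Pt P) + (R : Pt P)) - (e : Kb)) * ps (R : Pt P) ^ 2 =
        ((xc (R : Pt P) - (e : Kb)) ^ 2 - (c : Kb)) ^ 2 := D.dbl_formula (R : Pt P) hR0 hRR0
    refine ⟨R, hRN, ?_, ?_⟩
    · intro h
      exact hRR0 ((D.ψ_eq_zero_iff (R : Pt P) hR0).mpr h)
    · rw [hRR'] at hdbl
      have := congrArg complexEmbedding hdbl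
      simpa only [map_mul, map_pow, map_sub, map_ratCast] using this
  have hre : ∀ q : ℚ, starRingEnd ℂ (q : ℂ) = (q : ℂ) := fun q => map_ratCast _ q
  constructor
  · intro hs x hx hx0
    obtain ⟨R, hRN, hps, hrel⟩ := key x hx hx0
    have hxr := Real_conj_xc P x (Or.inl (hs x hx))
    have hRr := Real_conj_xc P R (Or.inl (hs R hRN))
    have hpsr : starRingEnd ℂ (complexEmbedding (ps (R : Pt P))) =
        complexEmbedding (ps (R : Pt P)) := by
      rw [← complexEmbedding_complexConjugation, ← ps_smul, ← coe_smul_tors, hs R hRN]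
    have := Real_nonneg_of_real (z := complexEmbedding (xc (x : Pt P)) - (e : ℂ))
      (t := (complexEmbedding (xc (R : Pt P)) - (e : ℂ)) ^ 2 - (c : ℂ))
      (s := complexEmbedding (ps (R : Pt P)))
      (by rw [map_sub, hxr, hre]) (by rw [map_sub, map_pow, map_sub, hRr, hre, hre]) hpsr
      (by rwa [Ne, map_eq_zero]) hrel
    rw [Complex.sub_re, Complex.ratCast_re] at this
    linarith
  · intro hs x hx hx0
    obtain ⟨R, hRN, hps, hrel⟩ := key x hx hx0
    have hxr := Real_conj_xc P x (Or.inr (hs x hx))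
    have hRr := Real_conj_xc P R (Or.inr (hs R hRN))
    have hpsr : starRingEnd ℂ (complexEmbedding (ps (R : Pt P))) =
        -complexEmbedding (ps (R : Pt P)) := by
      rw [← complexEmbedding_complexConjugation, ← ps_smul, ← coe_smul_tors, hs R hRN]
      show complexEmbedding (ps (-(R : Pt P))) = _
      rw [ps_neg, map_neg]
    have := Real_nonpos_of_imag (z := complexEmbedding (xc (x : Pt P)) - (e : ℂ))
      (t := (complexEmbedding (xc (R : Pt P)) - (e : ℂ)) ^ 2 - (c : ℂ))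
      (s := complexEmbedding (ps (R : Pt P)))
      (by rw [map_sub, hxr, hre]) (by rw [map_sub, map_pow, map_sub, hRr, hre, hre]) hpsr
      (by rwa [Ne, map_eq_zero]) hrel
    rw [Complex.sub_re, Complex.ratCast_re] at this
    linarith

/-- a nonzero rational whose inverse is integral at all primes has absolute value `≤ 1`. -/
lemma Real_abs_le_one {r : ℚ} (hr : r ≠ 0)
    (h : ∀ q : ℕ, q.Prime → ∃ A : ValuationSubring Kb, A.LiesOverPrime q ∧ ((r⁻¹ : ℚ) : Kb) ∈ A) :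
    |r| ≤ 1 := by
  have hden : (r⁻¹).den = 1 := by
    by_contra hne
    obtain ⟨q, hq, hqd⟩ := Nat.exists_prime_and_dvd hne
    obtain ⟨A, hA, hm⟩ := h q hq
    exact (ratCast_mem_iff A hq hA r⁻¹).1 hm hqd
  have h2 : r⁻¹ = ((r⁻¹).num : ℚ) := by
    conv_lhs => rw [← Rat.num_div_den r⁻¹, hden]
    simp
  have hn0 : (r⁻¹).num ≠ 0 := by
    rw [Ne, Rat.num_eq_zero]
    exact inv_ne_zero hr
  have h3 : (1 : ℚ) ≤ |r⁻¹| := by
    rw [h2, ← Int.cast_abs]
    exact_mod_cast Int.one_le_abs hn0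
  rw [abs_inv] at h3
  have hpos : 0 < |r| := abs_pos.mpr hr
  rwa [one_le_inv₀ hpos] at h3

/-- the product argument -/
theorem Real_prod_contra (N : Submodule (ZMod P.p) (Tors P)) (hN : IsGaloisStable ℚ N)
    (hbot : N ≠ ⊥) (e : ℚ)
    (hgood : ∀ q : ℕ, q.Prime → ∃ A : ValuationSubring Kb, A.LiesOverPrime q ∧
      ∀ x ∈ N, x ≠ 0 → xc (x : Pt P) - (e : Kb) ∉ A.nonunits)
    (hbig : ∀ x ∈ N, x ≠ 0 → 8 ≤ |(complexEmbedding (xc (x : Pt P))).re - (e : ℝ)|) : False := by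
  classical
  have hfin : Finite (Tors P) := (frey_card_le P).1
  let _ : Fintype (Tors P) := Fintype.ofFinite _
  set F : Finset (Tors P) := Finset.univ.filter (fun x : Tors P => x ≠ 0 ∧ x ∈ N) with hF
  have hFmem : ∀ x, x ∈ F ↔ x ≠ 0 ∧ x ∈ N := by
    intro x; simp [hF]
  set Pr : Kb := ∏ x ∈ F, (xc (x : Pt P) - (e : Kb)) with hPr
  have hfix : ∀ σ : GalQ, σ Pr = Pr := by
    intro σ
    rw [hPr, map_prod]
    refine Finset.prod_bij (fun x _ => σ • x) ?_ ?_ ?_ ?_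
    · intro x hx
      rw [hFmem] at hx ⊢
      exact ⟨fun h => hx.1 ((smul_eq_zero_iff_eq σ).mp h), hN σ x hx.2⟩
    · intro x _ y _ h
      exact smul_left_cancel σ h
    · intro y hy
      rw [hFmem] at hy
      refine ⟨σ⁻¹ • y, ?_, smul_inv_smul σ y⟩
      rw [hFmem]
      exact ⟨fun h => hy.1 ((smul_eq_zero_iff_eq σ⁻¹).mp h), hN σ⁻¹ y hy.2⟩
    · intro x _
      rw [map_sub, map_ratCast, coe_smul_tors, xc_smul]
  obtain ⟨r, hr⟩ := exists_ratCast_of_fixed hfix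
  have hfac0 : ∀ x ∈ F, xc (x : Pt P) - (e : Kb) ≠ 0 := by
    intro x hx h0
    obtain ⟨A, -, hA⟩ := hgood 2 Nat.prime_two
    rw [hFmem] at hx
    apply hA x hx.2 hx.1
    rw [h0, ValuationSubring.mem_nonunits_iff, _root_.map_zero]
    exact zero_lt_one
  have hPr0 : Pr ≠ 0 := Finset.prod_ne_zero_iff.mpr hfac0
  have hr0 : r ≠ 0 := by
    rintro rfl
    apply hPr0
    rw [← hr]; simp
  have h1 : |r| ≤ 1 := by
    apply Real_abs_le_one hr0
    intro q hq
    obtain ⟨A, hA, hg⟩ := hgood q hq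
    refine ⟨A, hA, ?_⟩
    rw [Rat.cast_inv, hr, hPr, ← Finset.prod_inv_distrib]
    apply Subring.prod_mem A.toSubring
    intro x hx
    rw [hFmem] at hx
    exact ((not_nonunits_iff A).mp (hg x hx.2 hx.1)).2
  -- the real place
  have hne : F.Nonempty := by
    obtain ⟨x₀, hx₀, h0⟩ := Submodule.exists_mem_ne_zero_of_ne_bot hbot
    exact ⟨x₀, (hFmem x₀).mpr ⟨h0, hx₀⟩⟩
  have h2 : ‖complexEmbedding Pr‖ = |(r : ℝ)| := by
    rw [← hr, map_ratCast]
    rw [show ((r : ℂ)) = (((r : ℝ)) : ℂ) by push_cast; rfl, Complex.norm_real, Real.norm_eq_abs]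
  have h3 : (8 : ℝ) ^ F.card ≤ ‖complexEmbedding Pr‖ := by
    rw [hPr, map_prod, norm_prod, ← Finset.prod_const]
    apply Finset.prod_le_prod
    · intro x _; norm_num
    · intro x hx
      rw [hFmem] at hx
      refine (hbig x hx.2 hx.1).trans ?_
      have := Complex.abs_re_le_norm (complexEmbedding (xc (x : Pt P) - (e : Kb)))
      rw [map_sub, map_ratCast, Complex.sub_re, Complex.ratCast_re] at this
      rw [map_sub, map_ratCast]
      exact this
  have h4 : (8 : ℝ) ≤ 8 ^ F.card := by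
    calc (8 : ℝ) = 8 ^ 1 := (pow_one _).symm
      _ ≤ 8 ^ F.card := pow_le_pow_right₀ (by norm_num) (Finset.card_pos.mpr hne)
  have h5 : |(r : ℝ)| ≤ 1 := by
    have : ((|r| : ℚ) : ℝ) ≤ ((1 : ℚ) : ℝ) := by exact_mod_cast h1
    simpa using this
  rw [h2] at h3
  linarith

lemma Real_b_pow_large : (32 : ℝ) ≤ |((P.b : ℝ)) ^ P.p| := by
  obtain ⟨k, hk⟩ := frey_two_dvd_b P
  have hk0 : k ≠ 0 := by
    rintro rfl
    exact P.hb0 (by rw [hk]; ring)
  have h2 : (2 : ℤ) ≤ |P.b| := by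
    rw [hk, abs_mul]
    have := Int.one_le_abs hk0
    have h2' : |(2 : ℤ)| = 2 := by norm_num
    rw [h2']; linarith
  have h2r : (2 : ℝ) ≤ |(P.b : ℝ)| := by exact_mod_cast h2
  rw [abs_pow]
  calc (32 : ℝ) = 2 ^ 5 := by norm_num
    _ ≤ 2 ^ P.p := pow_le_pow_right₀ (by norm_num) P.hp5
    _ ≤ |(P.b : ℝ)| ^ P.p := pow_le_pow_left₀ (by norm_num) h2r _

/-- **The real end of S12.**  A Galois-stable line `N` of `E[p]` cannot satisfy:
for `e = 0` and `e = -b^p/4` and every prime `q` there is `A ∣ q` such that no `x(T) - e`, `T ∈ N \ 0`,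
lies in the maximal ideal of `A`. -/
theorem real_endgame (N : Submodule (ZMod P.p) (Tors P)) (hN : IsGaloisStable ℚ N)
    (hbot : N ≠ ⊥) (htop : N ≠ ⊤)
    (h0 : ∀ q : ℕ, q.Prime → ∃ A : ValuationSubring Kb, A.LiesOverPrime q ∧
      ∀ x ∈ N, x ≠ 0 → xc (x : Pt P) ∉ A.nonunits)
    (h1 : ∀ q : ℕ, q.Prime → ∃ A : ValuationSubring Kb, A.LiesOverPrime q ∧
      ∀ x ∈ N, x ≠ 0 → xc (x : Pt P) + (P.b : Kb) ^ P.p / 4 ∉ A.nonunits) : False := by
  -- the two centres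
  have he0 : 4 * ((0 : ℚ) : Kb) ^ 3 + (P.freyCurve⁄Kb).b₂ * ((0 : ℚ) : Kb) ^ 2
      + 2 * (P.freyCurve⁄Kb).b₄ * ((0 : ℚ) : Kb) + (P.freyCurve⁄Kb).b₆ = 0 := by
    rw [frey_b₆_Kb]; simp
  have hc0 : 2 * ((-((P.a : ℚ) ^ P.p * (P.b : ℚ) ^ P.p) / 16 : ℚ) : Kb) =
      6 * ((0 : ℚ) : Kb) ^ 2 + (P.freyCurve⁄Kb).b₂ * ((0 : ℚ) : Kb) + (P.freyCurve⁄Kb).b₄ := by
    rw [frey_b₄_Kb]; push_cast; ring
  have he1 : 4 * ((-(P.b : ℚ) ^ P.p / 4 : ℚ) : Kb) ^ 3
      + (P.freyCurve⁄Kb).b₂ * ((-(P.b : ℚ) ^ P.p / 4 : ℚ) : Kb) ^ 2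
      + 2 * (P.freyCurve⁄Kb).b₄ * ((-(P.b : ℚ) ^ P.p / 4 : ℚ) : Kb) + (P.freyCurve⁄Kb).b₆ = 0 := by
    rw [frey_b₆_Kb, frey_b₄_Kb, frey_b₂_Kb]; push_cast; ring
  have hc1 : 2 * (((P.b : ℚ) ^ P.p * ((P.a : ℚ) ^ P.p + (P.b : ℚ) ^ P.p) / 16 : ℚ) : Kb) =
      6 * ((-(P.b : ℚ) ^ P.p / 4 : ℚ) : Kb) ^ 2
      + (P.freyCurve⁄Kb).b₂ * ((-(P.b : ℚ) ^ P.p / 4 : ℚ) : Kb) + (P.freyCurve⁄Kb).b₄ := by
    rw [frey_b₄_Kb, frey_b₂_Kb]; push_cast; ring
  have S0 := Real_sign P N 0 _ he0 hc0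
  have S1 := Real_sign P N _ _ he1 hc1
  have g0 : ∀ q : ℕ, q.Prime → ∃ A : ValuationSubring Kb, A.LiesOverPrime q ∧
      ∀ x ∈ N, x ≠ 0 → xc (x : Pt P) - ((0 : ℚ) : Kb) ∉ A.nonunits := by
    intro q hq
    obtain ⟨A, hA, h⟩ := h0 q hq
    refine ⟨A, hA, fun x hx hx0 => ?_⟩
    rw [Rat.cast_zero, sub_zero]
    exact h x hx hx0
  have g1 : ∀ q : ℕ, q.Prime → ∃ A : ValuationSubring Kb, A.LiesOverPrime q ∧
      ∀ x ∈ N, x ≠ 0 → xc (x : Pt P) - ((-(P.b : ℚ) ^ P.p / 4 : ℚ) : Kb) ∉ A.nonunits := by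
    intro q hq
    obtain ⟨A, hA, h⟩ := h1 q hq
    refine ⟨A, hA, fun x hx hx0 => ?_⟩
    have : xc (x : Pt P) - ((-(P.b : ℚ) ^ P.p / 4 : ℚ) : Kb) =
        xc (x : Pt P) + (P.b : Kb) ^ P.p / 4 := by push_cast; ring
    rw [this]
    exact h x hx hx0
  have hB := Real_b_pow_large P
  have hcast : (((-(P.b : ℚ) ^ P.p / 4 : ℚ)) : ℝ) = -((P.b : ℝ) ^ P.p) / 4 := by push_cast; ring
  have hcast0 : (((0 : ℚ)) : ℝ) = 0 := by simp
  rcases Real_conj_sign P N hN hbot htop with hs | hs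
  · have a0 := S0.1 hs
    have a1 := S1.1 hs
    rcases le_total 0 ((P.b : ℝ) ^ P.p) with hb | hb
    · rw [abs_of_nonneg hb] at hB
      refine Real_prod_contra P N hN hbot _ g1 fun x hx hx0 => ?_
      have u0 := a0 x hx hx0
      rw [hcast0] at u0
      rw [hcast]
      refine le_trans ?_ (le_abs_self _)
      linarith
    · rw [abs_of_nonpos hb] at hB
      refine Real_prod_contra P N hN hbot _ g0 fun x hx hx0 => ?_
      have u1 := a1 x hx hx0
      rw [hcast] at u1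
      rw [hcast0]
      refine le_trans ?_ (le_abs_self _)
      linarith
  · have a0 := S0.2 hs
    have a1 := S1.2 hs
    rcases le_total 0 ((P.b : ℝ) ^ P.p) with hb | hb
    · rw [abs_of_nonneg hb] at hB
      refine Real_prod_contra P N hN hbot _ g0 fun x hx hx0 => ?_
      have u1 := a1 x hx hx0
      rw [hcast] at u1
      rw [hcast0]
      refine le_trans ?_ (neg_le_abs _)
      linarith
    · rw [abs_of_nonpos hb] at hB
      refine Real_prod_contra P N hN hbot _ g1 fun x hx hx0 => ?_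
      have u0 := a0 x hx hx0
      rw [hcast0] at u0
      rw [hcast]
      refine le_trans ?_ (neg_le_abs _)
      linarith

end Fermat.Agent.S12
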