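import Mathlib

/-!
# S12 : reindexing a product over the nonzero multiples of a point of prime order
-/

set_option autoImplicit false

namespace Fermat.Agent.S12

lemma Reindex_smul_mod {G : Type*} [AddCommGroup G] {p : ℕ} {Q : G} (hpQ : p • Q = 0) (n : ℕ) :
    (n % p) • Q = n • Q := by
  conv_rhs => rw [← Nat.div_add_mod n p]
  rw [add_smul, mul_comm, mul_smul, hpQ, smul_zero, zero_add]

/-- `k • (j • Q) = ((k * j) % p) • Q` (`Nat.div_add_mod`, `hpQ`) and `k ↦ (k * j) % p` is a bijection of `Ico 1 p`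
(`Finset.prod_bij` / `Finset.prod_nbij`; injectivity: `p ∣ (k - k') * j`; surjectivity from injectivity on a finite set:
`Finset.surj_on_of_inj_on_of_card_le` or use the inverse of `j` mod `p`). -/
theorem prod_reindex {G : Type*} [AddCommGroup G] {M : Type*} [CommMonoid M] {p : ℕ}
    (hp : p.Prime) {Q : G} (hpQ : p • Q = 0) (f : G → M) {j : ℕ} (hj : ¬ p ∣ j) :
    ∏ k ∈ Finset.Ico 1 p, f (k • (j • Q)) = ∏ k ∈ Finset.Ico 1 p, f (k • Q) := by
  have hmaps : ∀ k ∈ Finset.Ico 1 p, (k * j) % p ∈ Finset.Ico 1 p := by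
    intro k hk
    rw [Finset.mem_Ico] at hk ⊢
    refine ⟨?_, Nat.mod_lt _ hp.pos⟩
    rw [Nat.one_le_iff_ne_zero]
    intro h0
    have hd : p ∣ k * j := Nat.dvd_of_mod_eq_zero h0
    rcases hp.dvd_mul.1 hd with h | h
    · exact absurd (Nat.le_of_dvd (by omega) h) (by omega)
    · exact hj h
  have hinj : Set.InjOn (fun k => (k * j) % p) (Finset.Ico 1 p : Finset ℕ) := by
    intro a ha b hb hab
    rw [Finset.coe_Ico, Set.mem_Ico] at ha hb
    have hab' : a * j ≡ b * j [MOD p] := hab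
    have hcop : Nat.gcd p j = 1 := (Nat.Prime.coprime_iff_not_dvd hp).2 hj
    have h2 : a ≡ b [MOD p] := Nat.ModEq.cancel_right_of_coprime hcop hab'
    exact Nat.ModEq.eq_of_lt_of_lt h2 ha.2 hb.2
  have hsurj : Set.SurjOn (fun k => (k * j) % p) (Finset.Ico 1 p : Finset ℕ)
      (Finset.Ico 1 p : Finset ℕ) :=
    Finset.surjOn_of_injOn_of_card_le _ hmaps hinj le_rfl
  refine Finset.prod_nbij (fun k => (k * j) % p) hmaps hinj hsurj ?_
  intro k _
  rw [Reindex_smul_mod hpQ, mul_smul]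

end Fermat.Agent.S12
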